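import Mathlib

/-!
# Case I of Fermat's Last Theorem via Sophie Germain's criterion

If `p` is an odd prime and `q` is an auxiliary prime such that
* `x ^ p + y ^ p + z ^ p = 0` in `ZMod q` forces one of `x, y, z` to vanish, and
* `p` is not a `p`-th power in `ZMod q`,
then every coprime integer solution of `a ^ p + b ^ p = c ^ p` has `p ∣ a * b * c`.
-/

set_option autoImplicit false

namespace Fermat.Agent.KummerLib

open Finset

/-- The cofactor of `y + z` in `y ^ p + z ^ p`. -/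
def sgPhi (p : ℕ) (y z : ℤ) : ℤ := ∑ i ∈ range p, y ^ i * (-z) ^ (p - 1 - i)

lemma sgPhi_mul {p : ℕ} (hp : Odd p) (y z : ℤ) : sgPhi p y z * (y + z) = y ^ p + z ^ p := by
  have h := Commute.geom_sum₂_mul (Commute.all y (-z)) p
  rw [sub_neg_eq_add, hp.neg_pow] at h
  rw [sgPhi, h]; ring

lemma sg_factor {p : ℕ} (hp : p.Prime) (hp2 : p ≠ 2) {y z w : ℤ} (hyz : IsCoprime y z)
    (h : y ^ p + z ^ p = w ^ p) (hw : ¬ (p : ℤ) ∣ w) :
    ∃ s t : ℤ, y + z = s ^ p ∧ sgPhi p y z = t ^ p := by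
  have hodd : Odd p := hp.odd_of_ne_two hp2
  have hmul := sgPhi_mul hodd y z
  have hpZ : Prime (p : ℤ) := Nat.prime_iff_prime_int.mp hp
  have hcop : IsCoprime (sgPhi p y z) (y + z) := by
    apply isCoprime_of_prime_dvd
    · rintro ⟨-, h0⟩
      rw [h0, mul_zero, h] at hmul
      have : w = 0 := by
        have := hmul.symm
        exact pow_eq_zero_iff hp.ne_zero |>.mp this
      exact hw (this ▸ dvd_zero _)
    · intro r hr hr1 hr2
      have hr2' : r ∣ y - (-z) := by rwa [sub_neg_eq_add]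
      have h3 : r ∣ (p : ℤ) * (-z) ^ (p - 1) := by
        have := (dvd_geom_sum₂_iff_of_dvd_sub (n := p) hr2').mp hr1
        exact_mod_cast this
      rcases hr.dvd_or_dvd h3 with h4 | h4
      · -- `r ∣ p`, so `p ∣ y + z`
        have h5 : (p : ℤ) ∣ r := by
          rcases (hpZ.irreducible.dvd_iff.mp h4) with h6 | h6
          · exact absurd h6 hr.not_isUnit
          · exact h6.dvd
        have h6 : (p : ℤ) ∣ w ^ p := by
          rw [← h, ← hmul]
          exact Dvd.dvd.mul_left (h5.trans hr2) _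
        exact hw (hpZ.dvd_of_dvd_pow h6)
      · have h5 : r ∣ z := by
          have := hr.dvd_of_dvd_pow h4
          rwa [dvd_neg] at this
        have h6 : r ∣ y := by
          have := dvd_sub hr2 h5
          rwa [add_sub_cancel_right] at this
        exact hr.not_isUnit (hyz.isUnit_of_dvd' h6 h5)
  obtain ⟨⟨t, ht⟩, ⟨s, hs⟩⟩ := Int.eq_pow_of_mul_eq_pow_odd hcop hodd (hmul.trans h)
  exact ⟨s, t, hs, ht⟩

/-- The heart of Sophie Germain's argument, assuming the auxiliary prime divides `x`. -/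
lemma sg_core {p q : ℕ} (hp : p.Prime) (hp2 : p ≠ 2) (hq : q.Prime)
    (h1 : ∀ x y z : ZMod q, x ^ p + y ^ p + z ^ p = 0 → x = 0 ∨ y = 0 ∨ z = 0)
    (h2 : ∀ x : ZMod q, x ^ p ≠ (p : ZMod q))
    {x y z : ℤ} (hxy : IsCoprime x y) (hyz : IsCoprime y z) (hzx : IsCoprime z x)
    (h : x ^ p + y ^ p + z ^ p = 0)
    (hpx : ¬ (p : ℤ) ∣ x) (hpy : ¬ (p : ℤ) ∣ y) (hpz : ¬ (p : ℤ) ∣ z)
    (hqx : (q : ℤ) ∣ x) : False := by
  have : Fact q.Prime := ⟨hq⟩
  have hodd : Odd p := hp.odd_of_ne_two hp2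
  have hqZ : Prime (q : ℤ) := Nat.prime_iff_prime_int.mp hq
  obtain ⟨A, α, hA, hα⟩ := sg_factor hp hp2 (w := -x) hyz
    (by rw [hodd.neg_pow]; linarith) (by rwa [dvd_neg])
  obtain ⟨B, -, hB, -⟩ := sg_factor hp hp2 (w := -y) hzx
    (by rw [hodd.neg_pow]; linarith) (by rwa [dvd_neg])
  obtain ⟨C, γ, hC, hγ⟩ := sg_factor hp hp2 (w := -z) hxy
    (by rw [hodd.neg_pow]; linarith) (by rwa [dvd_neg])
  have hx0 : (x : ZMod q) = 0 := (ZMod.intCast_zmod_eq_zero_iff_dvd x q).mpr hqx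
  have hy0 : (y : ZMod q) ≠ 0 := by
    intro hy
    have hqy : (q : ℤ) ∣ y := (ZMod.intCast_zmod_eq_zero_iff_dvd y q).mp hy
    exact hqZ.not_isUnit (hxy.isUnit_of_dvd' hqx hqy)
  have hz0 : (z : ZMod q) ≠ 0 := by
    intro hz
    have hqz : (q : ℤ) ∣ z := (ZMod.intCast_zmod_eq_zero_iff_dvd z q).mp hz
    exact hqZ.not_isUnit (hzx.isUnit_of_dvd' hqz hqx)
  have hAq : (y : ZMod q) + z = (A : ZMod q) ^ p := by exact_mod_cast congrArg (Int.cast : ℤ → ZMod q) hA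
  have hBq : (z : ZMod q) + x = (B : ZMod q) ^ p := by exact_mod_cast congrArg (Int.cast : ℤ → ZMod q) hB
  have hCq : (x : ZMod q) + y = (C : ZMod q) ^ p := by exact_mod_cast congrArg (Int.cast : ℤ → ZMod q) hC
  have hsum : (B : ZMod q) ^ p + (C : ZMod q) ^ p + (-(A : ZMod q)) ^ p = 0 := by
    rw [hodd.neg_pow, ← hAq, ← hBq, ← hCq, hx0]; ring
  have hpne : p ≠ 0 := hp.ne_zero
  rcases h1 _ _ _ hsum with hB0 | hC0 | hA0
  · rw [hB0, zero_pow hpne, hx0, add_zero] at hBq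
    exact hz0 hBq
  · rw [hC0, zero_pow hpne, hx0, zero_add] at hCq
    exact hy0 hCq
  · have hA0' : (A : ZMod q) = 0 := neg_eq_zero.mp hA0
    rw [hA0', zero_pow hpne] at hAq
    have hzy : -(z : ZMod q) = y := by
      have : (z : ZMod q) = -y := by
        rw [eq_neg_iff_add_eq_zero, add_comm]; exact hAq
      rw [this, neg_neg]
    -- `α ^ p = p * y ^ (p - 1)`
    have hαq : (α : ZMod q) ^ p = (p : ZMod q) * (y : ZMod q) ^ (p - 1) := by
      have := congrArg (Int.cast : ℤ → ZMod q) hα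
      rw [sgPhi] at this
      push_cast at this
      rw [← this, hzy, geom_sum₂_self]
    -- `γ ^ p = y ^ (p - 1)`
    have hγq : (γ : ZMod q) ^ p = (y : ZMod q) ^ (p - 1) := by
      have := congrArg (Int.cast : ℤ → ZMod q) hγ
      rw [sgPhi] at this
      push_cast at this
      rw [← this, hx0]
      have hpos : 0 < p := hp.pos
      rw [Finset.sum_eq_single_of_mem 0 (Finset.mem_range.mpr hpos)]
      · have heven : Even (p - 1) := by
          obtain ⟨k, hk⟩ := hodd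
          exact ⟨k, by omega⟩
        simp [heven.neg_pow]
      · intro i _ hi
        rw [zero_pow hi, zero_mul]
    have hγ0 : (γ : ZMod q) ≠ 0 := by
      intro h0
      rw [h0, zero_pow hpne] at hγq
      exact pow_ne_zero _ hy0 hγq.symm
    apply h2 ((α : ZMod q) / γ)
    rw [div_pow, hαq, hγq, mul_div_assoc, div_self (pow_ne_zero _ hy0), mul_one]

/-- **Sophie Germain's theorem** (generalised form with an arbitrary auxiliary prime). -/
theorem caseI {p q : ℕ} (hp : p.Prime) (hp2 : p ≠ 2) (hq : q.Prime)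
    (h1 : ∀ x y z : ZMod q, x ^ p + y ^ p + z ^ p = 0 → x = 0 ∨ y = 0 ∨ z = 0)
    (h2 : ∀ x : ZMod q, x ^ p ≠ (p : ZMod q))
    {a b c : ℤ} (hab : IsCoprime a b) (h : a ^ p + b ^ p = c ^ p) : (p : ℤ) ∣ a * b * c := by
  by_contra hcon
  have hodd : Odd p := hp.odd_of_ne_two hp2
  have hpa : ¬ (p : ℤ) ∣ a := fun hd => hcon ((hd.mul_right b).mul_right c)
  have hpb : ¬ (p : ℤ) ∣ b := fun hd => hcon ((hd.mul_left a).mul_right c)
  have hpc : ¬ (p : ℤ) ∣ c := fun hd => hcon (hd.mul_left (a * b))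
  have hpc' : ¬ (p : ℤ) ∣ -c := by rwa [dvd_neg]
  have hsum : a ^ p + b ^ p + (-c) ^ p = 0 := by rw [hodd.neg_pow, h]; ring
  -- pairwise coprimality
  have hbc : IsCoprime b (-c) := by
    apply isCoprime_of_prime_dvd
    · rintro ⟨hb0, -⟩
      exact hpb (hb0 ▸ dvd_zero _)
    · intro r hr hrb hrc
      rw [dvd_neg] at hrc
      have : r ∣ a ^ p := by
        have h3 : a ^ p = c ^ p - b ^ p := by rw [← h]; ring
        rw [h3]
        exact dvd_sub (dvd_pow hrc hp.ne_zero) (dvd_pow hrb hp.ne_zero)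
      exact hr.not_isUnit (hab.isUnit_of_dvd' (hr.dvd_of_dvd_pow this) hrb)
  have hca : IsCoprime (-c) a := by
    apply isCoprime_of_prime_dvd
    · rintro ⟨-, ha0⟩
      exact hpa (ha0 ▸ dvd_zero _)
    · intro r hr hrc hra
      rw [dvd_neg] at hrc
      have : r ∣ b ^ p := by
        have h3 : b ^ p = c ^ p - a ^ p := by rw [← h]; ring
        rw [h3]
        exact dvd_sub (dvd_pow hrc hp.ne_zero) (dvd_pow hra hp.ne_zero)
      exact hr.not_isUnit (hab.isUnit_of_dvd' hra (hr.dvd_of_dvd_pow this))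
  have hq3 : (a : ZMod q) ^ p + (b : ZMod q) ^ p + ((-c : ℤ) : ZMod q) ^ p = 0 := by
    exact_mod_cast congrArg (Int.cast : ℤ → ZMod q) hsum
  rcases h1 _ _ _ hq3 with h0 | h0 | h0
  · exact sg_core hp hp2 hq h1 h2 hab hbc hca hsum hpa hpb hpc'
      ((ZMod.intCast_zmod_eq_zero_iff_dvd _ q).mp h0)
  · exact sg_core hp hp2 hq h1 h2 hbc hca hab (by linarith) hpb hpc' hpa
      ((ZMod.intCast_zmod_eq_zero_iff_dvd _ q).mp h0)
  · exact sg_core hp hp2 hq h1 h2 hca hab hbc (by linarith) hpc' hpa hpb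
      ((ZMod.intCast_zmod_eq_zero_iff_dvd _ q).mp h0)


/-! ### The four instances -/

private lemma pow_five_mem (x : ZMod 11) : x ^ 5 = 0 ∨ x ^ 5 = 1 ∨ x ^ 5 = -1 := by
  revert x; decide

private lemma pow_seven_mem (x : ZMod 29) :
    x ^ 7 = 0 ∨ x ^ 7 = 1 ∨ x ^ 7 = -1 ∨ x ^ 7 = 12 ∨ x ^ 7 = -12 := by
  revert x; decide

private lemma pow_eleven_mem (x : ZMod 23) : x ^ 11 = 0 ∨ x ^ 11 = 1 ∨ x ^ 11 = -1 := by
  revert x; decide

private lemma pow_thirteen_mem (x : ZMod 53) :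
    x ^ 13 = 0 ∨ x ^ 13 = 1 ∨ x ^ 13 = -1 ∨ x ^ 13 = 23 ∨ x ^ 13 = -23 := by
  revert x; decide

private lemma key_five (u v w : ZMod 11) (hu : u = 0 ∨ u = 1 ∨ u = -1)
    (hv : v = 0 ∨ v = 1 ∨ v = -1) (hw : w = 0 ∨ w = 1 ∨ w = -1) :
    u + v + w = 0 → u = 0 ∨ v = 0 ∨ w = 0 := by
  rcases hu with rfl | rfl | rfl <;> rcases hv with rfl | rfl | rfl <;>
    rcases hw with rfl | rfl | rfl <;> decide

private lemma key_seven (u v w : ZMod 29) (hu : u = 0 ∨ u = 1 ∨ u = -1 ∨ u = 12 ∨ u = -12)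
    (hv : v = 0 ∨ v = 1 ∨ v = -1 ∨ v = 12 ∨ v = -12)
    (hw : w = 0 ∨ w = 1 ∨ w = -1 ∨ w = 12 ∨ w = -12) :
    u + v + w = 0 → u = 0 ∨ v = 0 ∨ w = 0 := by
  rcases hu with rfl | rfl | rfl | rfl | rfl <;> rcases hv with rfl | rfl | rfl | rfl | rfl <;>
    rcases hw with rfl | rfl | rfl | rfl | rfl <;> decide

private lemma key_eleven (u v w : ZMod 23) (hu : u = 0 ∨ u = 1 ∨ u = -1)
    (hv : v = 0 ∨ v = 1 ∨ v = -1) (hw : w = 0 ∨ w = 1 ∨ w = -1) :
    u + v + w = 0 → u = 0 ∨ v = 0 ∨ w = 0 := by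
  rcases hu with rfl | rfl | rfl <;> rcases hv with rfl | rfl | rfl <;>
    rcases hw with rfl | rfl | rfl <;> decide

private lemma key_thirteen (u v w : ZMod 53) (hu : u = 0 ∨ u = 1 ∨ u = -1 ∨ u = 23 ∨ u = -23)
    (hv : v = 0 ∨ v = 1 ∨ v = -1 ∨ v = 23 ∨ v = -23)
    (hw : w = 0 ∨ w = 1 ∨ w = -1 ∨ w = 23 ∨ w = -23) :
    u + v + w = 0 → u = 0 ∨ v = 0 ∨ w = 0 := by
  rcases hu with rfl | rfl | rfl | rfl | rfl <;> rcases hv with rfl | rfl | rfl | rfl | rfl <;>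
    rcases hw with rfl | rfl | rfl | rfl | rfl <;> decide

private lemma ne_five (x : ZMod 11) : x ^ 5 ≠ ((5 : ℕ) : ZMod 11) := by
  intro hx
  rcases pow_five_mem x with h0 | h0 | h0 <;> rw [h0] at hx <;> revert hx <;> decide

private lemma ne_seven (x : ZMod 29) : x ^ 7 ≠ ((7 : ℕ) : ZMod 29) := by
  intro hx
  rcases pow_seven_mem x with h0 | h0 | h0 | h0 | h0 <;> rw [h0] at hx <;> revert hx <;> decide

private lemma ne_eleven (x : ZMod 23) : x ^ 11 ≠ ((11 : ℕ) : ZMod 23) := by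
  intro hx
  rcases pow_eleven_mem x with h0 | h0 | h0 <;> rw [h0] at hx <;> revert hx <;> decide

private lemma ne_thirteen (x : ZMod 53) : x ^ 13 ≠ ((13 : ℕ) : ZMod 53) := by
  intro hx
  rcases pow_thirteen_mem x with h0 | h0 | h0 | h0 | h0 <;> rw [h0] at hx <;> revert hx <;> decide

private lemma zero_of_pow {q n : ℕ} (hq : q.Prime) (hn : n ≠ 0) {x y z : ZMod q}
    (h : x ^ n = 0 ∨ y ^ n = 0 ∨ z ^ n = 0) : x = 0 ∨ y = 0 ∨ z = 0 := by
  have : Fact q.Prime := ⟨hq⟩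
  rcases h with h0 | h0 | h0
  · exact Or.inl ((pow_eq_zero_iff hn).mp h0)
  · exact Or.inr (Or.inl ((pow_eq_zero_iff hn).mp h0))
  · exact Or.inr (Or.inr ((pow_eq_zero_iff hn).mp h0))

theorem caseI_five {a b c : ℤ} (hab : IsCoprime a b) (h : a ^ 5 + b ^ 5 = c ^ 5) :
    (5 : ℤ) ∣ a * b * c :=
  caseI (p := 5) (q := 11) (by norm_num) (by norm_num) (by norm_num)
    (fun x y z hxyz => zero_of_pow (by norm_num) (by norm_num)
      (key_five _ _ _ (pow_five_mem x) (pow_five_mem y) (pow_five_mem z) hxyz)) ne_five hab h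

theorem caseI_seven {a b c : ℤ} (hab : IsCoprime a b) (h : a ^ 7 + b ^ 7 = c ^ 7) :
    (7 : ℤ) ∣ a * b * c :=
  caseI (p := 7) (q := 29) (by norm_num) (by norm_num) (by norm_num)
    (fun x y z hxyz => zero_of_pow (by norm_num) (by norm_num)
      (key_seven _ _ _ (pow_seven_mem x) (pow_seven_mem y) (pow_seven_mem z) hxyz)) ne_seven hab h

theorem caseI_eleven {a b c : ℤ} (hab : IsCoprime a b) (h : a ^ 11 + b ^ 11 = c ^ 11) :
    (11 : ℤ) ∣ a * b * c :=
  caseI (p := 11) (q := 23) (by norm_num) (by norm_num) (by norm_num)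
    (fun x y z hxyz => zero_of_pow (by norm_num) (by norm_num)
      (key_eleven _ _ _ (pow_eleven_mem x) (pow_eleven_mem y) (pow_eleven_mem z) hxyz))
    ne_eleven hab h

theorem caseI_thirteen {a b c : ℤ} (hab : IsCoprime a b) (h : a ^ 13 + b ^ 13 = c ^ 13) :
    (13 : ℤ) ∣ a * b * c :=
  caseI (p := 13) (q := 53) (by norm_num) (by norm_num) (by norm_num)
    (fun x y z hxyz => zero_of_pow (by norm_num) (by norm_num)
      (key_thirteen _ _ _ (pow_thirteen_mem x) (pow_thirteen_mem y) (pow_thirteen_mem z) hxyz))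
    ne_thirteen hab h

end Fermat.Agent.KummerLib
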