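import Mathlib

set_option autoImplicit false

namespace Fermat.Agent.KummerLib.CaseIIAux

open Polynomial Finset

section Abstract

variable {R : Type*} [CommRing R] [IsDomain R]
  {p : ℕ} {ζ : R}

omit [IsDomain R] in
/-- `∑_{j<i} ζ^j ≡ i` modulo `ζ - 1`. -/
lemma sub_one_dvd_geom_sum_sub (ζ : R) (i : ℕ) : ζ - 1 ∣ (∑ j ∈ range i, ζ ^ j) - (i : R) := by
  have : (∑ j ∈ range i, ζ ^ j) - (i : R) = ∑ j ∈ range i, (ζ ^ j - 1) := by
    simp [Finset.sum_sub_distrib]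
  rw [this]
  refine Finset.dvd_sum fun j _ => ?_
  simpa using sub_dvd_pow_sub_pow ζ 1 j

lemma one_mem_roots (hp : p.Prime) : (1 : R) ∈ nthRootsFinset p (1 : R) := by
  rw [mem_nthRootsFinset hp.pos]; simp

lemma pow_mem_roots (hp : p.Prime) (hζ : IsPrimitiveRoot ζ p) (i : ℕ) :
    ζ ^ i ∈ nthRootsFinset p (1 : R) := by
  rw [mem_nthRootsFinset hp.pos, ← pow_mul, mul_comm, pow_mul, hζ.pow_eq_one, one_pow]

/-- every factor `a + η b` is divisible by `ζ - 1` -/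
lemma dvd_factor (hp : p.Prime) (hodd : Odd p) (hζ : IsPrimitiveRoot ζ p) (hl : Prime (ζ - 1))
    {a b c : R} {u : Rˣ} (hc : ζ - 1 ∣ c) (H : a ^ p + b ^ p = u * c ^ p)
    {η : R} (hη : η ∈ nthRootsFinset p (1 : R)) : ζ - 1 ∣ a + η * b := by
  have h1 : ζ - 1 ∣ ∏ η ∈ nthRootsFinset p (1 : R), (a + η * b) := by
    rw [← hζ.pow_add_pow_eq_prod_add_mul a b hodd, H]
    exact Dvd.dvd.mul_left (dvd_pow hc hp.ne_zero) _
  obtain ⟨η₀, hη₀, h2⟩ := hl.exists_mem_finset_dvd h1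
  have h3 : ζ - 1 ∣ η - η₀ := hζ.sub_one_dvd_sub hp hη hη₀
  have : a + η * b = (a + η₀ * b) + (η - η₀) * b := by ring
  rw [this]
  exact dvd_add h2 (Dvd.dvd.mul_right h3 _)

lemma sub_one_dvd_intCast (hp : p.Prime) (hζ : IsPrimitiveRoot ζ p) {n : ℤ} (h : (p : ℤ) ∣ n) :
    ζ - 1 ∣ (n : R) := by
  obtain ⟨k, rfl⟩ := h
  push_cast
  exact Dvd.dvd.mul_right (hζ.sub_one_dvd_natCast hp.one_lt) _

/-- some factor is divisible by `(ζ - 1)^2` -/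
lemma exists_sq_dvd_factor (hp : p.Prime) (hodd : Odd p) (hζ : IsPrimitiveRoot ζ p)
    (hl : Prime (ζ - 1))
    (hres : ∀ x : R, ∃ n : ℤ, ζ - 1 ∣ x - n)
    {a b c : R} {u : Rˣ} (hb : ¬ ζ - 1 ∣ b) (hc : ζ - 1 ∣ c) (H : a ^ p + b ^ p = u * c ^ p) :
    ∃ i : ℕ, (ζ - 1) ^ 2 ∣ a + ζ ^ i * b := by
  have := Fact.mk hp
  obtain ⟨t, ht⟩ := dvd_factor hp hodd hζ hl hc H (one_mem_roots hp)
  obtain ⟨nt, hnt⟩ := hres t
  obtain ⟨nb, hnb⟩ := hres b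
  have hpb : ¬ (p : ℤ) ∣ nb := by
    intro h
    apply hb
    have := dvd_add hnb (sub_one_dvd_intCast hp hζ h)
    simpa using this
  have hnb0 : (nb : ZMod p) ≠ 0 := by
    rwa [Ne, ZMod.intCast_zmod_eq_zero_iff_dvd]
  obtain ⟨i, hi⟩ : ∃ i : ℕ, (p : ℤ) ∣ nt + i * nb := by
    refine ⟨(-(nt : ZMod p) * (nb : ZMod p)⁻¹).val, ?_⟩
    rw [← ZMod.intCast_zmod_eq_zero_iff_dvd]
    push_cast
    rw [ZMod.natCast_val, ZMod.cast_id', id, mul_assoc, inv_mul_cancel₀ hnb0]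
    ring
  refine ⟨i, ?_⟩
  have e1 : a + ζ ^ i * b = (ζ - 1) * (t + (∑ j ∈ range i, ζ ^ j) * b) := by
    have := mul_geom_sum ζ i
    linear_combination ht - b * this
  rw [e1, pow_two]
  refine mul_dvd_mul_left _ ?_
  have e2 : t + (∑ j ∈ range i, ζ ^ j) * b = (t - nt) + ((∑ j ∈ range i, ζ ^ j) - (i : R)) * b
      + i * (b - nb) + ((nt + i * nb : ℤ) : R) := by
    push_cast; ring
  rw [e2]
  exact dvd_add (dvd_add (dvd_add hnt (Dvd.dvd.mul_right (sub_one_dvd_geom_sum_sub ζ i) _))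
    (Dvd.dvd.mul_left hnb _)) (sub_one_dvd_intCast hp hζ hi)

/-- `p`-th powers are congruent to integers modulo `p`. -/
lemma exists_int_dvd_pow_sub (hp : p.Prime) (hζ : IsPrimitiveRoot ζ p)
    (hres : ∀ x : R, ∃ n : ℤ, ζ - 1 ∣ x - n)
    (hpl : Associated ((ζ - 1) ^ (p - 1)) (p : R)) (x : R) :
    ∃ n : ℤ, (p : R) ∣ x ^ p - n := by
  obtain ⟨n, hn⟩ := hres x
  refine ⟨n ^ p, ?_⟩
  push_cast
  rw [hζ.pow_sub_pow_eq_prod_sub_mul x (n : R) hp.pos]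
  have h1 : (ζ - 1) ^ p ∣ ∏ η ∈ nthRootsFinset p (1 : R), (x - η * n) := by
    have : (ζ - 1) ^ p = ∏ _η ∈ nthRootsFinset p (1 : R), (ζ - 1) := by
      rw [Finset.prod_const, hζ.card_nthRootsFinset]
    rw [this]
    refine Finset.prod_dvd_prod_of_dvd _ _ fun η hη => ?_
    have e : x - η * n = (x - n) + (1 - η) * n := by ring
    rw [e]
    exact dvd_add hn (Dvd.dvd.mul_right (hζ.sub_one_dvd_sub hp (one_mem_roots hp) hη) _)
  exact (hpl.symm.dvd.trans (pow_dvd_pow _ (Nat.sub_le p 1))).trans h1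

/-- The descent step, under the normalisation `(ζ - 1)^2 ∣ a + b`. -/
theorem descent_step_aux [IsPrincipalIdealRing R] (hp : p.Prime) (hodd : Odd p)
    (hζ : IsPrimitiveRoot ζ p) (hl : Prime (ζ - 1))
    (hres : ∀ x : R, ∃ n : ℤ, ζ - 1 ∣ x - n)
    (hpl : Associated ((ζ - 1) ^ (p - 1)) (p : R))
    (kummer : ∀ u : Rˣ, (∃ n : ℤ, (p : R) ∣ (u : R) - n) → ∃ v : Rˣ, u = v ^ p)
    {a b c : R} {u : Rˣ} (hc0 : c ≠ 0) (hb : ¬ ζ - 1 ∣ b) (hc : ζ - 1 ∣ c)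
    (hab : IsCoprime a b) (H : a ^ p + b ^ p = u * c ^ p) (hsq : (ζ - 1) ^ 2 ∣ a + b) :
    ∃ (a' b' c' : R) (u' : Rˣ), c' ≠ 0 ∧ ¬ ζ - 1 ∣ a' ∧ ¬ ζ - 1 ∣ b' ∧ ζ - 1 ∣ c' ∧
      IsCoprime a' b' ∧ a' ^ p + b' ^ p = u' * c' ^ p ∧ DvdNotUnit c' c := by
  classical
  have hl0 : ζ - 1 ≠ 0 := hl.ne_zero
  -- the quotients
  have hx : ∀ η : R, ∃ x : R, η ∈ nthRootsFinset p (1 : R) → a + η * b = (ζ - 1) * x := by
    intro η
    by_cases hη : η ∈ nthRootsFinset p (1 : R)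
    · obtain ⟨x, hx⟩ := dvd_factor hp hodd hζ hl hc H hη
      exact ⟨x, fun _ => hx⟩
    · exact ⟨0, fun h => absurd h hη⟩
  choose x hx using hx
  -- coprimality
  have hcop : ∀ η₁ ∈ nthRootsFinset p (1 : R), ∀ η₂ ∈ nthRootsFinset p (1 : R), η₁ ≠ η₂ →
      IsCoprime (x η₁) (x η₂) := by
    intro η₁ h₁ η₂ h₂ hne
    obtain ⟨v, hv⟩ := hζ.nthRootsFinset_pairwise_associated_sub_one_sub_of_prime hp h₁ h₂ hne
    obtain ⟨r, s, hrs⟩ := hab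
    have e1 : x η₁ - x η₂ = v * b := by
      apply mul_left_cancel₀ hl0
      linear_combination -(hx η₁ h₁) + hx η₂ h₂ - b * hv
    have e2 : η₂ * x η₁ - η₁ * x η₂ = -(v * a) := by
      apply mul_left_cancel₀ hl0
      linear_combination -η₂ * (hx η₁ h₁) + η₁ * hx η₂ h₂ + a * hv
    have hwv : ((v⁻¹ : Rˣ) : R) * v = 1 := by simp
    refine ⟨-r * ((v⁻¹ : Rˣ) : R) * η₂ + s * ((v⁻¹ : Rˣ) : R),
      r * ((v⁻¹ : Rˣ) : R) * η₁ - s * ((v⁻¹ : Rˣ) : R), ?_⟩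
    linear_combination (-r * ((v⁻¹ : Rˣ) : R)) * e2 + (s * ((v⁻¹ : Rˣ) : R)) * e1
      + (r * a + s * b) * hwv + hrs
  -- product
  obtain ⟨c₁, rfl⟩ := hc
  have hprod : ∏ η ∈ nthRootsFinset p (1 : R), x η = u * c₁ ^ p := by
    apply mul_left_cancel₀ (pow_ne_zero p hl0)
    calc (ζ - 1) ^ p * ∏ η ∈ nthRootsFinset p (1 : R), x η
        = ∏ η ∈ nthRootsFinset p (1 : R), ((ζ - 1) * x η) := by
          rw [Finset.prod_mul_distrib, Finset.prod_const, hζ.card_nthRootsFinset]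
      _ = ∏ η ∈ nthRootsFinset p (1 : R), (a + η * b) :=
          Finset.prod_congr rfl (fun η hη => (hx η hη).symm)
      _ = a ^ p + b ^ p := (hζ.pow_add_pow_eq_prod_add_mul a b hodd).symm
      _ = _ := by rw [H, mul_pow]; ring
  -- each is an associated p-th power
  have hpow : ∀ η ∈ nthRootsFinset p (1 : R), ∃ y : R, Associated (y ^ p) (x η) := by
    intro η hη
    have h1 : IsCoprime (x η) (∏ η' ∈ (nthRootsFinset p (1 : R)).erase η, x η') :=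
      IsCoprime.prod_right (fun η' hη' =>
        hcop η hη η' (Finset.mem_of_mem_erase hη') (Finset.ne_of_mem_erase hη').symm)
    have h2 : Associated (c₁ ^ p) (x η * ∏ η' ∈ (nthRootsFinset p (1 : R)).erase η, x η') := by
      rw [Finset.mul_prod_erase _ x hη, hprod]
      exact (associated_unit_mul_left _ _ u.isUnit).symm
    exact exists_associated_pow_of_associated_pow_mul h1 h2
  -- the three roots `1`, `ζ`, `ζ⁻¹`
  have hζ' : ζ * ζ ^ (p - 1) = 1 := by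
    rw [← pow_succ', Nat.sub_add_cancel hp.one_le, hζ.pow_eq_one]
  have m1 : (1 : R) ∈ nthRootsFinset p (1 : R) := one_mem_roots hp
  have mζ : ζ ∈ nthRootsFinset p (1 : R) := by simpa using pow_mem_roots hp hζ 1
  have mζ' : ζ ^ (p - 1) ∈ nthRootsFinset p (1 : R) := pow_mem_roots hp hζ (p - 1)
  have hζ1 : ζ ≠ 1 := hζ.ne_one hp.one_lt
  have hζ'1 : ζ ^ (p - 1) ≠ 1 := by
    intro h
    rw [h, mul_one] at hζ'
    exact hζ1 hζ'
  have hζζ' : ζ ≠ ζ ^ (p - 1) := by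
    intro h
    rw [← h, ← pow_two] at hζ'
    have h2 : p ∣ 2 := hζ.dvd_of_pow_eq_one 2 hζ'
    have h3 : p = 2 := (Nat.prime_dvd_prime_iff_eq hp Nat.prime_two).1 h2
    subst h3
    exact absurd hodd (by decide)
  have hrel : x ζ + ζ * x (ζ ^ (p - 1)) = (1 + ζ) * x 1 := by
    apply mul_left_cancel₀ hl0
    linear_combination -(hx ζ mζ) - ζ * hx _ mζ' + (1 + ζ) * hx 1 m1 + b * hζ'
  have hx1 : ζ - 1 ∣ x 1 := by
    have h := hx 1 m1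
    rw [one_mul] at h
    rw [h, pow_two] at hsq
    exact (mul_dvd_mul_iff_left hl0).1 hsq
  have hxη : ∀ η ∈ nthRootsFinset p (1 : R), η ≠ 1 → ¬ ζ - 1 ∣ x η := by
    intro η hη hne hdvd
    obtain ⟨v, hv⟩ := hζ.nthRootsFinset_pairwise_associated_sub_one_sub_of_prime hp hη m1 hne
    apply hb
    obtain ⟨k, hk⟩ := hdvd
    obtain ⟨k', hk'⟩ := hx1
    have h1 := hx 1 m1
    have h2 := hx η hη
    have hwv : ((v⁻¹ : Rˣ) : R) * v = 1 := by simp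
    refine ⟨((v⁻¹ : Rˣ) : R) * (k - k'), ?_⟩
    apply mul_left_cancel₀ hl0
    rw [hk] at h2
    rw [hk'] at h1
    linear_combination (-(ζ - 1) * b) * hwv + ((v⁻¹ : Rˣ) : R) * (b * hv + h2 - h1)
  obtain ⟨y₀, ε₀, h₀⟩ := hpow 1 m1
  obtain ⟨y₁, ε₁, h₁⟩ := hpow ζ mζ
  obtain ⟨y₂, ε₂, h₂⟩ := hpow _ mζ'
  have hy₀ : ζ - 1 ∣ y₀ := by
    rw [← h₀] at hx1
    exact hl.dvd_of_dvd_pow ((Units.dvd_mul_right).1 hx1)
  have hy₁ : ¬ ζ - 1 ∣ y₁ := by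
    intro h
    apply hxη ζ mζ hζ1
    rw [← h₁]
    exact Dvd.dvd.mul_right (dvd_pow h hp.ne_zero) _
  have hy₂ : ¬ ζ - 1 ∣ y₂ := by
    intro h
    apply hxη _ mζ' hζ'1
    rw [← h₂]
    exact Dvd.dvd.mul_right (dvd_pow h hp.ne_zero) _
  obtain ⟨ζu, hζu⟩ : IsUnit ζ := hζ.isUnit hp.ne_zero
  obtain ⟨δ, hδ⟩ : IsUnit (1 + ζ) := by
    have := hζ.geom_sum_isUnit hp.two_le (j := 2)
      ((Nat.coprime_primes Nat.prime_two hp).2 (by rintro rfl; exact absurd hodd (by decide)))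
    simpa [Finset.sum_range_succ] using this
  -- the new equation
  have hε : (ε₁ : R) * ((ε₁⁻¹ : Rˣ) : R) = 1 := by simp
  have hnew : y₁ ^ p + ((ζu * ε₂ * ε₁⁻¹ : Rˣ) : R) * y₂ ^ p = ((δ * ε₀ * ε₁⁻¹ : Rˣ) : R) * y₀ ^ p := by
    rw [← h₀, ← h₁, ← h₂] at hrel
    simp only [Units.val_mul, hζu, hδ]
    linear_combination ((ε₁⁻¹ : Rˣ) : R) * hrel - y₁ ^ p * hε
  generalize (ζu * ε₂ * ε₁⁻¹ : Rˣ) = θ at hnew
  generalize (δ * ε₀ * ε₁⁻¹ : Rˣ) = u' at hnew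
  have hpy₀ : (p : R) ∣ y₀ ^ p :=
    (hpl.symm.dvd.trans (pow_dvd_pow _ (Nat.sub_le p 1))).trans (pow_dvd_pow_of_dvd hy₀ p)
  obtain ⟨n₁, hn₁⟩ := exists_int_dvd_pow_sub hp hζ hres hpl y₁
  obtain ⟨n₂, hn₂⟩ := exists_int_dvd_pow_sub hp hζ hres hpl y₂
  have hlp : ζ - 1 ∣ (p : R) := hζ.sub_one_dvd_natCast hp.one_lt
  have hpn₂ : ¬ (p : ℤ) ∣ n₂ := by
    intro h
    apply hy₂
    apply hl.dvd_of_dvd_pow (n := p)
    have := dvd_add (hlp.trans hn₂) (sub_one_dvd_intCast hp hζ h)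
    simpa using this
  obtain ⟨r, s, hrs⟩ : IsCoprime (p : ℤ) n₂ :=
    (Nat.prime_iff_prime_int.mp hp).coprime_iff_not_dvd.mpr hpn₂
  have hrs' : (r : R) * p + s * n₂ = 1 := by exact_mod_cast congrArg (Int.cast : ℤ → R) hrs
  obtain ⟨v, hv⟩ := kummer θ ⟨-(n₁ * s), by
    obtain ⟨k₀, hk₀⟩ := hpy₀
    obtain ⟨k₁, hk₁⟩ := hn₁
    obtain ⟨k₂, hk₂⟩ := hn₂
    refine ⟨s * (u' * k₀ - k₁ - θ * k₂) + θ * r, ?_⟩
    push_cast
    linear_combination (-(θ : R)) * hrs' - s * hk₁ - s * θ * hk₂ + s * hnew + s * u' * hk₀⟩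
  have hy₀ne : y₀ ≠ 0 := by
    rintro rfl
    rw [zero_pow hp.ne_zero, zero_mul] at h₀
    have h0 : ∏ η ∈ nthRootsFinset p (1 : R), x η = 0 := Finset.prod_eq_zero m1 h₀.symm
    rw [hprod] at h0
    have : c₁ = 0 := by
      rcases mul_eq_zero.1 h0 with h | h
      · exact absurd h u.ne_zero
      · exact pow_eq_zero_iff hp.ne_zero |>.1 h
    exact hc0 (by rw [this, mul_zero])
  refine ⟨y₁, v * y₂, y₀, u', hy₀ne, hy₁, ?_, hy₀, ?_, ?_, hy₀ne, ?_⟩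
  · rwa [Units.dvd_mul_left]
  · have h := hcop ζ mζ _ mζ' hζζ'
    rw [← h₁, ← h₂, isCoprime_mul_unit_right_left ε₁.isUnit,
      isCoprime_mul_unit_right_right ε₂.isUnit, IsCoprime.pow_iff hp.pos hp.pos] at h
    rwa [isCoprime_mul_unit_left_right v.isUnit]
  · rw [mul_pow, ← hnew, hv]
    simp
  · have h1 : y₀ ^ p ∣ c₁ ^ p := by
      have h2 : y₀ ^ p ∣ x 1 := ⟨ε₀, h₀.symm⟩
      have h3 : x 1 ∣ ∏ η ∈ nthRootsFinset p (1 : R), x η := Finset.dvd_prod_of_mem x m1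
      rw [hprod] at h3
      exact (Units.dvd_mul_left).1 (h2.trans h3)
    obtain ⟨k, hk⟩ := (UniqueFactorizationMonoid.pow_dvd_pow_iff_dvd hp.ne_zero).1 h1
    refine ⟨(ζ - 1) * k, ?_, by rw [hk]; ring⟩
    intro hu
    exact hl.not_isUnit (isUnit_of_mul_isUnit_left hu)

/-- The descent step. -/
theorem descent_step [IsPrincipalIdealRing R] (hp : p.Prime) (hodd : Odd p)
    (hζ : IsPrimitiveRoot ζ p) (hl : Prime (ζ - 1))
    (hres : ∀ x : R, ∃ n : ℤ, ζ - 1 ∣ x - n)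
    (hpl : Associated ((ζ - 1) ^ (p - 1)) (p : R))
    (kummer : ∀ u : Rˣ, (∃ n : ℤ, (p : R) ∣ (u : R) - n) → ∃ v : Rˣ, u = v ^ p)
    {a b c : R} {u : Rˣ} (hc0 : c ≠ 0) (hb : ¬ ζ - 1 ∣ b) (hc : ζ - 1 ∣ c)
    (hab : IsCoprime a b) (H : a ^ p + b ^ p = u * c ^ p) :
    ∃ (a' b' c' : R) (u' : Rˣ), c' ≠ 0 ∧ ¬ ζ - 1 ∣ a' ∧ ¬ ζ - 1 ∣ b' ∧ ζ - 1 ∣ c' ∧
      IsCoprime a' b' ∧ a' ^ p + b' ^ p = u' * c' ^ p ∧ DvdNotUnit c' c := by
  obtain ⟨i, hi⟩ := exists_sq_dvd_factor hp hodd hζ hl hres hb hc H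
  have hu : IsUnit (ζ ^ i) := (hζ.isUnit hp.ne_zero).pow i
  refine descent_step_aux hp hodd hζ hl hres hpl kummer (a := a) (b := ζ ^ i * b) (u := u)
    hc0 ?_ hc ?_ ?_ hi
  · rwa [hu.dvd_mul_left]
  · rwa [isCoprime_mul_unit_left_right hu]
  · rw [mul_pow, ← pow_mul, mul_comm i p, pow_mul, hζ.pow_eq_one, one_pow, one_mul, H]

/-- The generalised Fermat equation has no solution in the second case. -/
theorem no_solution [IsPrincipalIdealRing R] (hp : p.Prime) (hodd : Odd p)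
    (hζ : IsPrimitiveRoot ζ p) (hl : Prime (ζ - 1))
    (hres : ∀ x : R, ∃ n : ℤ, ζ - 1 ∣ x - n)
    (hpl : Associated ((ζ - 1) ^ (p - 1)) (p : R))
    (kummer : ∀ u : Rˣ, (∃ n : ℤ, (p : R) ∣ (u : R) - n) → ∃ v : Rˣ, u = v ^ p)
    (c : R) : ∀ (a b : R) (u : Rˣ), c ≠ 0 → ¬ ζ - 1 ∣ b → ζ - 1 ∣ c →
      IsCoprime a b → a ^ p + b ^ p ≠ u * c ^ p := by
  induction c using (wellFounded_dvdNotUnit (α := R)).induction with
  | _ c ih =>
    intro a b u hc0 hb hc hab H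
    obtain ⟨a', b', c', u', hc0', -, hb', hc', hab', H', hlt⟩ :=
      descent_step hp hodd hζ hl hres hpl kummer hc0 hb hc hab H
    exact ih c' hlt a' b' u' hc0' hb' hc' hab' H'

end Abstract

section Cyclotomic

open NumberField

/-- every cyclotomic integer is congruent to a rational integer modulo `ζ - 1`. -/
lemma exists_int_zeta_sub_one_dvd_sub {p : ℕ} [Fact p.Prime] {K : Type*} [Field K] [NumberField K]
    [IsCyclotomicExtension {p} ℚ K] {ζ : K} (hζ : IsPrimitiveRoot ζ p) (x : 𝓞 K) :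
    ∃ n : ℤ, hζ.toInteger - 1 ∣ x - n := by
  obtain ⟨f, hf⟩ := hζ.integralPowerBasis.exists_eq_aeval' x
  rw [hζ.integralPowerBasis_gen] at hf
  refine ⟨f.eval 1, ?_⟩
  have h := Polynomial.sub_dvd_eval_sub hζ.toInteger 1 (f.map (algebraMap ℤ (𝓞 K)))
  rw [Polynomial.eval_map_algebraMap, Polynomial.eval_one_map, eq_intCast, ← hf] at h
  exact h

end Cyclotomic

end Fermat.Agent.KummerLib.CaseIIAux

namespace Fermat.Agent.KummerLib

open NumberField CaseIIAux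

/-- **Case II** of Fermat's Last Theorem for a prime `p` such that `ℤ[ζ_p]` is a PID and
Kummer's lemma holds. -/
theorem caseII {p : ℕ} [Fact p.Prime] (hp : p ≠ 2) (K : Type) [Field K] [NumberField K]
    [IsCyclotomicExtension {p} ℚ K] [IsPrincipalIdealRing (𝓞 K)]
    (kummer : ∀ u : (𝓞 K)ˣ, (∃ n : ℤ, (p : 𝓞 K) ∣ (u : 𝓞 K) - n) → ∃ v : (𝓞 K)ˣ, u = v ^ p)
    {a b c : ℤ} (hab : IsCoprime a b) (hc : c ≠ 0) (hpc : (p : ℤ) ∣ c)
    (h : a ^ p + b ^ p = c ^ p) : False := by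
  have hpp : p.Prime := Fact.out
  have hζ := IsCyclotomicExtension.zeta_spec p ℚ K
  have hpb : ¬ (p : ℤ) ∣ b := by
    intro hb
    have hpZ : Prime (p : ℤ) := Nat.prime_iff_prime_int.mp hpp
    have ha : (p : ℤ) ∣ a := by
      apply hpZ.dvd_of_dvd_pow (n := p)
      have : a ^ p = c ^ p - b ^ p := by linear_combination h
      rw [this]
      exact dvd_sub (dvd_pow hpc hpp.ne_zero) (dvd_pow hb hpp.ne_zero)
    exact hpZ.not_isUnit (hab.isUnit_of_dvd' ha hb)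
  refine no_solution hpp (hpp.odd_of_ne_two hp) hζ.toInteger_isPrimitiveRoot
    hζ.zeta_sub_one_prime' (exists_int_zeta_sub_one_dvd_sub hζ)
    (IsCyclotomicExtension.Rat.associated_zeta_sub_one_pow_prime p hζ) kummer
    (c : 𝓞 K) (a : 𝓞 K) (b : 𝓞 K) 1 (by exact_mod_cast hc) ?_ ?_ hab.intCast ?_
  · rwa [IsCyclotomicExtension.Rat.zeta_sub_one_dvd_intCast_iff' p hζ]
  · rwa [IsCyclotomicExtension.Rat.zeta_sub_one_dvd_intCast_iff' p hζ]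
  · rw [Units.val_one, one_mul]
    exact_mod_cast h

end Fermat.Agent.KummerLib
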