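import Mathlib

set_option autoImplicit false

namespace Fermat.Agent.KummerLib.Dlog

open Polynomial Finset TrivSqZeroExt NumberField

section Dual

variable {A : Type*} [CommRing A]

lemma dual_pow (a b : A) (n : ℕ) :
    (inl a + inr b : DualNumber A) ^ n = inl (a ^ n) + inr (n * a ^ (n - 1) * b) := by
  ext
  · simp
  · simp [snd_pow, mul_assoc]

lemma sum_id (X : A) (n : ℕ) :
    ∑ i ∈ range n, (i : A) * X ^ (i - 1) * ((X - 1) * X) = n * X ^ n - X * ∑ i ∈ range n, X ^ i := by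
  induction n with
  | zero => simp
  | succ n ih =>
    rw [sum_range_succ, sum_range_succ, ih]
    cases n with
    | zero => simp
    | succ m =>
      simp only [Nat.add_sub_cancel, Nat.cast_add, Nat.cast_one, pow_succ]
      ring

lemma sum_id' (X : A) (n : ℕ) :
    ∑ i ∈ range n, (i : A) * X ^ i * (X - 1) = n * X ^ n - X * ∑ i ∈ range n, X ^ i := by
  induction n with
  | zero => simp
  | succ n ih =>
    rw [sum_range_succ, sum_range_succ, ih]
    simp only [Nat.cast_add, Nat.cast_one, pow_succ]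
    ring

end Dual

section Cyc

variable {p : ℕ} [hp : Fact p.Prime] {K : Type*} [Field K] [NumberField K]
  [IsCyclotomicExtension {p} ℚ K] {ζ : K} (hζ : IsPrimitiveRoot ζ p)

/-- the image of `ζ` in the dual numbers over `𝓞 K / p` -/
noncomputable def yy : DualNumber (𝓞 K ⧸ Ideal.span {(p : 𝓞 K)}) :=
  inl (Ideal.Quotient.mk _ hζ.toInteger) +
    inr (Ideal.Quotient.mk _ ((hζ.toInteger - 1) * hζ.toInteger))

lemma yy_pow (n : ℕ) : (yy hζ) ^ n = inl (Ideal.Quotient.mk _ (hζ.toInteger ^ n)) +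
    inr (Ideal.Quotient.mk _ (n * hζ.toInteger ^ (n - 1) * ((hζ.toInteger - 1) * hζ.toInteger))) := by
  rw [yy, dual_pow]
  simp

lemma sum_pow_yy : ∑ i ∈ range p, (yy hζ) ^ i = 0 := by
  have h0 : ∑ i ∈ range p, hζ.toInteger ^ i = 0 :=
    hζ.toInteger_isPrimitiveRoot.geom_sum_eq_zero hp.out.one_lt
  have hp0 : Ideal.Quotient.mk (Ideal.span {(p : 𝓞 K)}) ((p : 𝓞 K) * 1 - hζ.toInteger * 0) = 0 := by
    rw [Ideal.Quotient.eq_zero_iff_mem]
    simp [Ideal.mem_span_singleton]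
  simp_rw [yy_pow]
  ext
  · simp only [fst_sum, fst_add, fst_inl, fst_inr, add_zero, fst_zero]
    rw [← map_sum, h0, map_zero]
  · simp only [snd_sum, snd_add, snd_inl, snd_inr, zero_add, snd_zero]
    rw [← map_sum, sum_id, h0, hζ.toInteger_isPrimitiveRoot.pow_eq_one, hp0]

lemma minpoly_toInteger : minpoly ℤ hζ.toInteger = cyclotomic p ℤ := by
  rw [cyclotomic_eq_minpoly hζ hp.out.pos, ← RingOfIntegers.minpoly_coe]
  rfl

lemma aeval_yy : aeval (yy hζ) (minpoly ℤ hζ.integralPowerBasis.gen) = 0 := by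
  rw [hζ.integralPowerBasis_gen, minpoly_toInteger, cyclotomic_prime]
  simpa using sum_pow_yy hζ

/-- the ring homomorphism `𝓞 K → (𝓞 K / p)[ε]` encoding the derivation `(X-1) X d/dX`. -/
noncomputable def Psi : 𝓞 K →ₐ[ℤ] DualNumber (𝓞 K ⧸ Ideal.span {(p : 𝓞 K)}) :=
  hζ.integralPowerBasis.lift (yy hζ) (aeval_yy hζ)

lemma Psi_zeta : Psi hζ hζ.toInteger = yy hζ := by
  have := hζ.integralPowerBasis.lift_gen (yy hζ) (aeval_yy hζ)
  rw [hζ.integralPowerBasis_gen] at this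
  exact this

lemma fst_Psi (x : 𝓞 K) : fst (Psi hζ x) = Ideal.Quotient.mk _ x := by
  have : (fstHom ℤ _ _).comp (Psi hζ) = Ideal.Quotient.mkₐ ℤ (Ideal.span {(p : 𝓞 K)}) := by
    apply hζ.integralPowerBasis.algHom_ext
    rw [hζ.integralPowerBasis_gen]
    simp [Psi_zeta, yy]
  exact congrArg (fun f => f x) this

lemma snd_Psi_pow (n : ℕ) : snd (Psi hζ (hζ.toInteger ^ n)) =
    Ideal.Quotient.mk _ (n * hζ.toInteger ^ n * (hζ.toInteger - 1)) := by
  rw [map_pow, Psi_zeta, yy_pow]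
  simp only [snd_add, snd_inl, snd_inr, zero_add]
  congr 1
  cases n with
  | zero => simp
  | succ m => simp only [Nat.add_sub_cancel, pow_succ]; ring

/-- the logarithmic derivative on units -/
noncomputable def dlog (u : (𝓞 K)ˣ) : 𝓞 K ⧸ Ideal.span {(p : 𝓞 K)} :=
  snd (Psi hζ u) * Ideal.Quotient.mk _ ((u⁻¹ : (𝓞 K)ˣ) : 𝓞 K)

lemma dlog_mul (u v : (𝓞 K)ˣ) : dlog hζ (u * v) = dlog hζ u + dlog hζ v := by
  have hu : Ideal.Quotient.mk (Ideal.span {(p : 𝓞 K)}) (u : 𝓞 K) *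
      Ideal.Quotient.mk _ ((u⁻¹ : (𝓞 K)ˣ) : 𝓞 K) = 1 := by
    rw [← map_mul]; simp
  have hv : Ideal.Quotient.mk (Ideal.span {(p : 𝓞 K)}) (v : 𝓞 K) *
      Ideal.Quotient.mk _ ((v⁻¹ : (𝓞 K)ˣ) : 𝓞 K) = 1 := by
    rw [← map_mul]; simp
  simp only [dlog, Units.val_mul, map_mul, mul_inv, snd_mul, fst_Psi, smul_eq_mul,
    MulOpposite.smul_eq_mul_unop, MulOpposite.unop_op]
  linear_combination
    (snd (Psi hζ v) * Ideal.Quotient.mk _ ((v⁻¹ : (𝓞 K)ˣ) : 𝓞 K)) * hu +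
    (snd (Psi hζ u) * Ideal.Quotient.mk _ ((u⁻¹ : (𝓞 K)ˣ) : 𝓞 K)) * hv

lemma dlog_eq_zero (u : (𝓞 K)ˣ) (h : ∃ n : ℤ, (p : 𝓞 K) ∣ (u : 𝓞 K) - n) : dlog hζ u = 0 := by
  obtain ⟨n, w, hw⟩ := h
  have hu : (u : 𝓞 K) = n + p * w := by linear_combination hw
  have hp0 : ((p : ℕ) : DualNumber (𝓞 K ⧸ Ideal.span {(p : 𝓞 K)})) = 0 := by
    ext
    · simp only [fst_natCast, fst_zero]
      rw [← map_natCast (Ideal.Quotient.mk (Ideal.span {(p : 𝓞 K)})), Ideal.Quotient.eq_zero_iff_mem]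
      exact Ideal.mem_span_singleton_self _
    · simp
  rw [dlog, hu, map_add, map_mul, map_natCast, hp0, zero_mul, add_zero, map_intCast]
  simp

lemma snd_Psi_geom_sum (a : ℕ) : snd (Psi hζ (∑ j ∈ range a, hζ.toInteger ^ j)) =
    Ideal.Quotient.mk _ (a * hζ.toInteger ^ a - hζ.toInteger * ∑ j ∈ range a, hζ.toInteger ^ j) := by
  rw [map_sum, snd_sum]
  simp_rw [snd_Psi_pow]
  rw [← map_sum, sum_id']

/-- `ζ` as a unit -/
noncomputable def zetaUnit : (𝓞 K)ˣ :=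
  (hζ.toInteger_isPrimitiveRoot.isUnit hp.out.ne_zero).unit

lemma dlog_zetaUnit : dlog hζ (zetaUnit hζ) = Ideal.Quotient.mk _ (hζ.toInteger - 1) := by
  have h1 : ((zetaUnit hζ : (𝓞 K)ˣ) : 𝓞 K) = hζ.toInteger := rfl
  have h2 : hζ.toInteger * (((zetaUnit hζ)⁻¹ : (𝓞 K)ˣ) : 𝓞 K) = 1 := by
    rw [← h1]; simp
  have h3 := snd_Psi_pow hζ 1
  rw [pow_one] at h3
  rw [dlog, h1, h3, ← map_mul]
  congr 1
  linear_combination (hζ.toInteger - 1) * h2

/-- the cyclotomic unit `1 + ζ + ... + ζ^(a-1)`, with explicit inverse. -/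
noncomputable def cycUnit (a a' k : ℕ) (h : a * a' = 1 + p * k) : (𝓞 K)ˣ where
  val := ∑ j ∈ range a, hζ.toInteger ^ j
  inv := ∑ i ∈ range a', (hζ.toInteger ^ a) ^ i
  val_inv := by
    have h0 : hζ.toInteger - 1 ≠ 0 := hζ.zeta_sub_one_prime'.ne_zero
    apply mul_left_cancel₀ h0
    have e1 := mul_geom_sum hζ.toInteger a
    have e2 := mul_geom_sum (hζ.toInteger ^ a) a'
    have e3 : (hζ.toInteger ^ a) ^ a' = hζ.toInteger := by
      rw [← pow_mul, h, pow_add, pow_mul, hζ.toInteger_isPrimitiveRoot.pow_eq_one]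
      simp
    rw [e3] at e2
    rw [← mul_assoc, e1, e2, mul_one]
  inv_val := by
    have h0 : hζ.toInteger - 1 ≠ 0 := hζ.zeta_sub_one_prime'.ne_zero
    apply mul_left_cancel₀ h0
    have e1 := mul_geom_sum hζ.toInteger a
    have e2 := mul_geom_sum (hζ.toInteger ^ a) a'
    have e3 : (hζ.toInteger ^ a) ^ a' = hζ.toInteger := by
      rw [← pow_mul, h, pow_add, pow_mul, hζ.toInteger_isPrimitiveRoot.pow_eq_one]
      simp
    rw [e3] at e2
    rw [mul_comm (∑ i ∈ range a', (hζ.toInteger ^ a) ^ i), ← mul_assoc, e1, e2, mul_one]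

lemma dlog_cycUnit (a a' k : ℕ) (h : a * a' = 1 + p * k) :
    dlog hζ (cycUnit hζ a a' k h) = Ideal.Quotient.mk _
      (a * ∑ i ∈ range a', hζ.toInteger ^ (a * (i + 1)) - hζ.toInteger) := by
  have h1 : ((cycUnit hζ a a' k h : (𝓞 K)ˣ) : 𝓞 K) = ∑ j ∈ range a, hζ.toInteger ^ j := rfl
  have h2 : (((cycUnit hζ a a' k h)⁻¹ : (𝓞 K)ˣ) : 𝓞 K) = ∑ i ∈ range a', (hζ.toInteger ^ a) ^ i := rfl
  have h3 : (∑ j ∈ range a, hζ.toInteger ^ j) * ∑ i ∈ range a', (hζ.toInteger ^ a) ^ i = 1 :=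
    (cycUnit hζ a a' k h).val_inv
  have h4 : ∑ i ∈ range a', hζ.toInteger ^ (a * (i + 1)) =
      hζ.toInteger ^ a * ∑ i ∈ range a', (hζ.toInteger ^ a) ^ i := by
    rw [Finset.mul_sum]
    refine Finset.sum_congr rfl fun i _ => ?_
    rw [← pow_mul, ← pow_add]
    congr 1
    ring
  rw [dlog, h1, h2, snd_Psi_geom_sum, ← map_mul, h4]
  congr 1
  linear_combination (-hζ.toInteger) * h3

lemma smul_quot_eq_zero (v : 𝓞 K ⧸ Ideal.span {(p : 𝓞 K)}) : p • v = 0 := by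
  obtain ⟨x, rfl⟩ := Ideal.Quotient.mk_surjective v
  rw [← map_nsmul, Ideal.Quotient.eq_zero_iff_mem, Ideal.mem_span_singleton, nsmul_eq_mul]
  exact dvd_mul_right _ _

lemma dvd_of_sum_zsmul_eq_zero {ι : Type*} [Fintype ι] (e : ι → ℤ) (x : ι → 𝓞 K)
    (h : ∑ i, e i • Ideal.Quotient.mk (Ideal.span {(p : 𝓞 K)}) (x i) = 0) :
    (p : 𝓞 K) ∣ ∑ i, (e i : 𝓞 K) * x i := by
  rw [← Ideal.mem_span_singleton, ← Ideal.Quotient.eq_zero_iff_mem, map_sum, ← h]
  refine Finset.sum_congr rfl fun i _ => ?_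
  rw [map_mul, map_intCast, zsmul_eq_mul]

/-- coordinates: a polynomial expression of small degree divisible by `p` has coefficients
divisible by `p`. -/
lemma dvd_coeff_of_dvd_aeval (f : ℤ[X]) (hf : f.natDegree < p - 1)
    (h : (p : 𝓞 K) ∣ aeval hζ.toInteger f) (i : ℕ) : (p : ℤ) ∣ f.coeff i := by
  obtain ⟨w, hw⟩ := h
  obtain ⟨g, hgdeg, hg⟩ := hζ.integralPowerBasis.exists_eq_aeval w
  rw [hζ.integralPowerBasis_gen] at hg
  rw [hζ.integralPowerBasis_dim, Nat.totient_prime hp.out] at hgdeg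
  have hroot : aeval hζ.integralPowerBasis.gen (f - C (p : ℤ) * g) = 0 := by
    rw [hζ.integralPowerBasis_gen, map_sub, map_mul, hw, hg]
    simp
  have hz : f - C (p : ℤ) * g = 0 := by
    by_contra hne
    have h1 := hζ.integralPowerBasis.dim_le_natDegree_of_root hne hroot
    rw [hζ.integralPowerBasis_dim, Nat.totient_prime hp.out] at h1
    have h2 : (f - C (p : ℤ) * g).natDegree ≤ max f.natDegree (C (p : ℤ) * g).natDegree :=
      natDegree_sub_le _ _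
    have h3 : (C (p : ℤ) * g).natDegree ≤ g.natDegree := natDegree_C_mul_le _ _
    omega
  have : f = C (p : ℤ) * g := by linear_combination hz
  rw [this, coeff_C_mul]
  exact dvd_mul_right _ _

/-- coordinates, cyclic version. -/
lemma dvd_sub_of_dvd_sum (c : ℕ → ℤ)
    (h : (p : 𝓞 K) ∣ ∑ i ∈ range p, (c i : 𝓞 K) * hζ.toInteger ^ i) (i : ℕ) (hi : i < p) :
    (p : ℤ) ∣ c i - c (p - 1) := by
  have hq : p - 1 + 1 = p := Nat.sub_add_cancel hp.out.one_le
  have key : ∀ f : ℕ → 𝓞 K, ∑ i ∈ range p, f i = ∑ i ∈ range (p - 1), f i + f (p - 1) :=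
    fun f => by rw [← Finset.sum_range_succ, hq]
  have h0 : ∑ i ∈ range p, hζ.toInteger ^ i = 0 :=
    hζ.toInteger_isPrimitiveRoot.geom_sum_eq_zero hp.out.one_lt
  rw [key] at h0
  rcases Nat.lt_or_ge i (p - 1) with hi' | hi'
  swap
  · have : i = p - 1 := by omega
    rw [this, sub_self]
    exact dvd_zero _
  set f : ℤ[X] := ∑ j ∈ range (p - 1), C (c j - c (p - 1)) * X ^ j with hf
  have hdeg : f.natDegree < p - 1 := by
    have : f.natDegree ≤ p - 2 := by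
      refine natDegree_sum_le_of_forall_le _ _ fun j hj => ?_
      have := Finset.mem_range.1 hj
      exact (natDegree_C_mul_X_pow_le _ _).trans (by omega)
    omega
  have haeval : aeval hζ.toInteger f = ∑ i ∈ range p, (c i : 𝓞 K) * hζ.toInteger ^ i := by
    have e : ∀ j, aeval hζ.toInteger (C (c j - c (p - 1)) * X ^ j : ℤ[X]) =
        (c j : 𝓞 K) * hζ.toInteger ^ j - (c (p - 1) : 𝓞 K) * hζ.toInteger ^ j := by
      intro j
      simp [sub_mul]
    rw [key, hf, map_sum]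
    simp_rw [e]
    rw [Finset.sum_sub_distrib, ← Finset.mul_sum]
    linear_combination (-(c (p - 1) : 𝓞 K)) * h0
  have := dvd_coeff_of_dvd_aeval hζ f hdeg (haeval ▸ h) i
  rw [hf, finsetSum_coeff] at this
  simp only [coeff_C_mul, coeff_X_pow, mul_ite, mul_one, mul_zero] at this
  rw [Finset.sum_ite_eq, if_pos (Finset.mem_range.2 hi')] at this
  exact this

end Cyc

end Fermat.Agent.KummerLib.Dlog
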