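import Mathlib

set_option autoImplicit false

open NumberField NumberField.Units

namespace Fermat.Agent.KummerLib

namespace UnitsCount

/-- Pure linear algebra: a spanning-type family `w` of the same cardinality as a linearly
independent family `v` contained in its span is itself linearly independent. -/
lemma linearIndependent_of_mem_span {F V ι κ : Type} [Field F] [AddCommGroup V] [Module F V]
    [Fintype ι] [Fintype κ] (hcard : Fintype.card ι = Fintype.card κ) (v : ι → V) (w : κ → V)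
    (hv : LinearIndependent F v) (hvw : ∀ i, v i ∈ Submodule.span F (Set.range w)) :
    LinearIndependent F w := by
  rw [linearIndependent_iff_card_eq_finrank_span]
  apply le_antisymm _ (finrank_range_le_card w)
  have h1 : Module.finrank F (Submodule.span F (Set.range v)) = Fintype.card ι :=
    finrank_span_eq_card hv
  have h2 : Submodule.span F (Set.range v) ≤ Submodule.span F (Set.range w) := by
    rw [Submodule.span_le]
    rintro _ ⟨i, rfl⟩
    exact hvw i
  have : FiniteDimensional F (Submodule.span F (Set.range w)) :=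
    FiniteDimensional.span_of_finite F (Set.finite_range w)
  have h3 := Submodule.finrank_mono h2
  rw [h1, hcard] at h3
  exact h3

lemma core {K : Type} [Field K] [NumberField K] {p : ℕ} [Fact p.Prime]
    {V : Type} [AddCommGroup V] [Module (ZMod p) V] (φ : (𝓞 K)ˣ → V)
    (hφ : ∀ u v, φ (u * v) = φ u + φ v)
    {ι : Type} [Fintype ι] (hι : Fintype.card ι = NumberField.Units.rank K + 1) (g : ι → (𝓞 K)ˣ)
    (hg : ∀ e : ι → ℤ, ∑ i, e i • φ (g i) = 0 → ∀ i, (p : ℤ) ∣ e i)
    (u : (𝓞 K)ˣ) (hu : φ u = 0) : ∃ v : (𝓞 K)ˣ, u = v ^ p := by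
  classical
  -- `φ` as an additive hom
  let Φ : Additive (𝓞 K)ˣ →+ V := AddMonoidHom.mk' (fun x => φ x.toMul) (fun a b => hφ _ _)
  have hΦ : ∀ x : (𝓞 K)ˣ, Φ (Additive.ofMul x) = φ x := fun _ => rfl
  obtain ⟨t, ht⟩ := IsCyclic.exists_generator (α := torsion K)
  -- decomposition of `φ x`
  let w : Option (Fin (rank K)) → V := fun o => o.elim (φ (t : (𝓞 K)ˣ)) (fun i => φ (fundSystem K i))
  have hdecomp : ∀ x : (𝓞 K)ˣ, ∃ (a : ℤ) (e : Fin (rank K) → ℤ),
      x = (t : (𝓞 K)ˣ) ^ a * ∏ i, fundSystem K i ^ e i := by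
    intro x
    obtain ⟨⟨ζ, e⟩, hx, -⟩ := exist_unique_eq_mul_prod K x
    obtain ⟨a, ha⟩ := Subgroup.mem_zpowers_iff.1 (ht ζ)
    refine ⟨a, e, ?_⟩
    rw [hx, ← ha]
    simp
  have hφdecomp : ∀ (a : ℤ) (e : Fin (rank K) → ℤ),
      φ ((t : (𝓞 K)ˣ) ^ a * ∏ i, fundSystem K i ^ e i)
        = a • φ (t : (𝓞 K)ˣ) + ∑ i, e i • φ (fundSystem K i) := by
    intro a e
    rw [← hΦ, ofMul_mul, map_add, ofMul_zpow, map_zsmul, ofMul_prod, map_sum]
    simp only [ofMul_zpow, map_zsmul, hΦ]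
  have hsmul : ∀ (n : ℤ) (x : V), ((n : ZMod p)) • x = n • x :=
    fun n x => Int.cast_smul_eq_zsmul (ZMod p) n x
  have hv : LinearIndependent (ZMod p) (fun i => φ (g i)) := by
    rw [Fintype.linearIndependent_iff]
    intro c hc i
    have h1 : ∑ i, ((c i).val : ℤ) • φ (g i) = 0 := by
      rw [← hc]
      refine Finset.sum_congr rfl fun j _ => ?_
      rw [← hsmul]
      congr 1
      simp
    have h2 := hg _ h1 i
    have h3 : (((c i).val : ℤ) : ZMod p) = 0 := (ZMod.intCast_zmod_eq_zero_iff_dvd _ p).2 h2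
    simpa using h3
  have hvw : ∀ i, φ (g i) ∈ Submodule.span (ZMod p) (Set.range w) := by
    intro i
    obtain ⟨a, e, hx⟩ := hdecomp (g i)
    rw [hx, hφdecomp]
    refine Submodule.add_mem _ ?_ (Submodule.sum_mem _ fun j _ => ?_)
    · rw [← hsmul]
      exact Submodule.smul_mem _ _ (Submodule.subset_span ⟨none, rfl⟩)
    · rw [← hsmul]
      exact Submodule.smul_mem _ _ (Submodule.subset_span ⟨some j, rfl⟩)
  have hw : LinearIndependent (ZMod p) w :=
    linearIndependent_of_mem_span (by simp [hι]) _ w hv hvw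
  obtain ⟨a, e, hx⟩ := hdecomp u
  rw [hx, hφdecomp] at hu
  rw [Fintype.linearIndependent_iff] at hw
  have hw' := hw (fun o => o.elim (a : ZMod p) (fun i => (e i : ZMod p))) (by
    rw [Fintype.sum_option]
    simp only [Option.elim, w, hsmul]
    exact hu)
  have ha : (p : ℤ) ∣ a := (ZMod.intCast_zmod_eq_zero_iff_dvd _ p).1 (hw' none)
  have he : ∀ i, (p : ℤ) ∣ e i := fun i => (ZMod.intCast_zmod_eq_zero_iff_dvd _ p).1 (hw' (some i))
  obtain ⟨a', rfl⟩ := ha
  choose e' he' using he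
  refine ⟨(t : (𝓞 K)ˣ) ^ a' * ∏ i, fundSystem K i ^ e' i, ?_⟩
  rw [hx, mul_pow, ← Finset.prod_pow]
  congr 1
  · rw [← zpow_natCast, ← zpow_mul, mul_comm]
  · refine Finset.prod_congr rfl fun i _ => ?_
    rw [he' i, ← zpow_natCast, ← zpow_mul, mul_comm]

end UnitsCount

theorem exists_pow_eq_of_dlog_eq_zero {K : Type} [Field K] [NumberField K] {p : ℕ} [Fact p.Prime]
    {V : Type} [AddCommGroup V] (φ : (𝓞 K)ˣ → V) (hφ : ∀ u v, φ (u * v) = φ u + φ v)
    (hV : ∀ v : V, p • v = 0)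
    {ι : Type} [Fintype ι] (hι : Fintype.card ι = NumberField.Units.rank K + 1) (g : ι → (𝓞 K)ˣ)
    (hg : ∀ e : ι → ℤ, ∑ i, e i • φ (g i) = 0 → ∀ i, (p : ℤ) ∣ e i)
    (u : (𝓞 K)ˣ) (hu : φ u = 0) : ∃ v : (𝓞 K)ˣ, u = v ^ p :=
  letI : Module (ZMod p) V := AddCommGroup.zmodModule hV
  UnitsCount.core φ hφ hι g hg u hu

theorem rank_add_one {p : ℕ} [Fact p.Prime] (hp : p ≠ 2) (K : Type) [Field K] [NumberField K]
    [IsCyclotomicExtension {p} ℚ K] : NumberField.Units.rank K + 1 = (p - 1) / 2 := by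
  have hpp : p.Prime := Fact.out
  have h2 : 2 < p := lt_of_le_of_ne hpp.two_le (Ne.symm hp)
  have h1 := IsCyclotomicExtension.Rat.nrRealPlaces_eq_zero K h2
  have h3 := IsCyclotomicExtension.Rat.nrComplexPlaces_eq_totient_div_two p K
  rw [Nat.totient_prime hpp] at h3
  have h4 := NumberField.InfinitePlace.card_eq_nrRealPlaces_add_nrComplexPlaces K
  rw [h1, h3, zero_add] at h4
  rw [NumberField.Units.rank, h4]
  have : 1 ≤ (p - 1) / 2 := by omega
  omega

end Fermat.Agent.KummerLib
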