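import Mathlib
import Fermat.Agent.Lib.Kummer.Dlog
import Fermat.Agent.Lib.Kummer.UnitsCount

set_option autoImplicit false

namespace Fermat.Agent.KummerLib

open NumberField Finset Dlog

theorem kummer_lemma_five (K : Type) [Field K] [NumberField K] [IsCyclotomicExtension {5} ℚ K]
    (u : (𝓞 K)ˣ) (h : ∃ n : ℤ, ((5 : ℕ) : 𝓞 K) ∣ (u : 𝓞 K) - n) : ∃ v : (𝓞 K)ˣ, u = v ^ 5 := by
  have : Fact (Nat.Prime 5) := ⟨by norm_num⟩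
  have hζ := IsCyclotomicExtension.zeta_spec 5 ℚ K
  have hz : hζ.toInteger ^ 5 = 1 := hζ.toInteger_isPrimitiveRoot.pow_eq_one
  refine exists_pow_eq_of_dlog_eq_zero (p := 5) (dlog hζ) (dlog_mul hζ) smul_quot_eq_zero
    (ι := Fin 2) (by rw [rank_add_one (p := 5) (by norm_num) K]; rfl)
    ![zetaUnit hζ, cycUnit hζ 2 3 1 (by norm_num)] ?_ u (dlog_eq_zero hζ u h)
  intro e he
  have hx : ∀ i, dlog hζ ((![zetaUnit hζ, cycUnit hζ 2 3 1 (by norm_num)] : Fin 2 → (𝓞 K)ˣ) i) =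
      Ideal.Quotient.mk _ ((![hζ.toInteger - 1, (2 : ℕ) * ∑ i ∈ range 3, hζ.toInteger ^ (2 * (i + 1)) - hζ.toInteger] : Fin 2 → 𝓞 K) i) := by
    intro i
    fin_cases i
    · exact dlog_zetaUnit hζ
    · exact dlog_cycUnit hζ 2 3 1 (by norm_num)
  simp_rw [hx] at he
  have h2 := dvd_of_sum_zsmul_eq_zero e _ he
  have h3 : ∑ i, (e i : 𝓞 K) * (![hζ.toInteger - 1, (2 : ℕ) * ∑ i ∈ range 3, hζ.toInteger ^ (2 * (i + 1)) - hζ.toInteger] : Fin 2 → 𝓞 K) i =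
      ∑ m ∈ range 5, (((fun m : ℕ => if m = 0 then (-1) * e 0 else if m = 1 then (1) * e 0 + (1) * e 1 else if m = 2 then (2) * e 1 else if m = 3 then 0 else (2) * e 1) m : ℤ) : 𝓞 K) * hζ.toInteger ^ m := by
    rw [Fin.sum_univ_two]
    simp only [Finset.sum_range_succ, Finset.sum_range_zero, Matrix.cons_val]
    norm_num
    linear_combination ((e 1 : 𝓞 K) * ((2) * hζ.toInteger ^ 1)) * hz
  rw [h3] at h2
  have h4 := dvd_sub_of_dvd_sum hζ _ h2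
  obtain ⟨k0, hk0⟩ : ((5 : ℕ) : ℤ) ∣ ((-1) * e 0) - ((2) * e 1) := h4 0 (by norm_num)
  obtain ⟨k1, hk1⟩ : ((5 : ℕ) : ℤ) ∣ ((1) * e 0 + (1) * e 1) - ((2) * e 1) := h4 1 (by norm_num)
  obtain ⟨k2, hk2⟩ : ((5 : ℕ) : ℤ) ∣ ((2) * e 1) - ((2) * e 1) := h4 2 (by norm_num)
  obtain ⟨k3, hk3⟩ : ((5 : ℕ) : ℤ) ∣ (0) - ((2) * e 1) := h4 3 (by norm_num)
  intro i
  fin_cases i
  · show ((5 : ℕ) : ℤ) ∣ e 0
    refine ⟨(-2) * k0 + (-1) * k1 - ((1) * e 1), ?_⟩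
    linear_combination (-2) * hk0 + (-1) * hk1
  · show ((5 : ℕ) : ℤ) ∣ e 1
    refine ⟨(-2) * k0 + (-2) * k1 - ((1) * e 1), ?_⟩
    linear_combination (-2) * hk0 + (-2) * hk1

theorem kummer_lemma_seven (K : Type) [Field K] [NumberField K] [IsCyclotomicExtension {7} ℚ K]
    (u : (𝓞 K)ˣ) (h : ∃ n : ℤ, ((7 : ℕ) : 𝓞 K) ∣ (u : 𝓞 K) - n) : ∃ v : (𝓞 K)ˣ, u = v ^ 7 := by
  have : Fact (Nat.Prime 7) := ⟨by norm_num⟩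
  have hζ := IsCyclotomicExtension.zeta_spec 7 ℚ K
  have hz : hζ.toInteger ^ 7 = 1 := hζ.toInteger_isPrimitiveRoot.pow_eq_one
  refine exists_pow_eq_of_dlog_eq_zero (p := 7) (dlog hζ) (dlog_mul hζ) smul_quot_eq_zero
    (ι := Fin 3) (by rw [rank_add_one (p := 7) (by norm_num) K]; rfl)
    ![zetaUnit hζ, cycUnit hζ 2 4 1 (by norm_num), cycUnit hζ 3 5 2 (by norm_num)] ?_ u (dlog_eq_zero hζ u h)
  intro e he
  have hx : ∀ i, dlog hζ ((![zetaUnit hζ, cycUnit hζ 2 4 1 (by norm_num), cycUnit hζ 3 5 2 (by norm_num)] : Fin 3 → (𝓞 K)ˣ) i) =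
      Ideal.Quotient.mk _ ((![hζ.toInteger - 1, (2 : ℕ) * ∑ i ∈ range 4, hζ.toInteger ^ (2 * (i + 1)) - hζ.toInteger, (3 : ℕ) * ∑ i ∈ range 5, hζ.toInteger ^ (3 * (i + 1)) - hζ.toInteger] : Fin 3 → 𝓞 K) i) := by
    intro i
    fin_cases i
    · exact dlog_zetaUnit hζ
    · exact dlog_cycUnit hζ 2 4 1 (by norm_num)
    · exact dlog_cycUnit hζ 3 5 2 (by norm_num)
  simp_rw [hx] at he
  have h2 := dvd_of_sum_zsmul_eq_zero e _ he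
  have h3 : ∑ i, (e i : 𝓞 K) * (![hζ.toInteger - 1, (2 : ℕ) * ∑ i ∈ range 4, hζ.toInteger ^ (2 * (i + 1)) - hζ.toInteger, (3 : ℕ) * ∑ i ∈ range 5, hζ.toInteger ^ (3 * (i + 1)) - hζ.toInteger] : Fin 3 → 𝓞 K) i =
      ∑ m ∈ range 7, (((fun m : ℕ => if m = 0 then (-1) * e 0 else if m = 1 then (1) * e 0 + (1) * e 1 + (2) * e 2 else if m = 2 then (2) * e 1 + (3) * e 2 else if m = 3 then (3) * e 2 else if m = 4 then (2) * e 1 else if m = 5 then (3) * e 2 else (2) * e 1 + (3) * e 2) m : ℤ) : 𝓞 K) * hζ.toInteger ^ m := by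
    rw [Fin.sum_univ_three]
    simp only [Finset.sum_range_succ, Finset.sum_range_zero, Matrix.cons_val]
    norm_num
    linear_combination ((e 1 : 𝓞 K) * ((2) * hζ.toInteger ^ 1) + (e 2 : 𝓞 K) * ((3) * hζ.toInteger ^ 1 + (3) * hζ.toInteger ^ 2 + (3) * hζ.toInteger ^ 5 + (3) * hζ.toInteger ^ 8)) * hz
  rw [h3] at h2
  have h4 := dvd_sub_of_dvd_sum hζ _ h2
  obtain ⟨k0, hk0⟩ : ((7 : ℕ) : ℤ) ∣ ((-1) * e 0) - ((2) * e 1 + (3) * e 2) := h4 0 (by norm_num)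
  obtain ⟨k1, hk1⟩ : ((7 : ℕ) : ℤ) ∣ ((1) * e 0 + (1) * e 1 + (2) * e 2) - ((2) * e 1 + (3) * e 2) := h4 1 (by norm_num)
  obtain ⟨k2, hk2⟩ : ((7 : ℕ) : ℤ) ∣ ((2) * e 1 + (3) * e 2) - ((2) * e 1 + (3) * e 2) := h4 2 (by norm_num)
  obtain ⟨k3, hk3⟩ : ((7 : ℕ) : ℤ) ∣ ((3) * e 2) - ((2) * e 1 + (3) * e 2) := h4 3 (by norm_num)
  obtain ⟨k4, hk4⟩ : ((7 : ℕ) : ℤ) ∣ ((2) * e 1) - ((2) * e 1 + (3) * e 2) := h4 4 (by norm_num)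
  obtain ⟨k5, hk5⟩ : ((7 : ℕ) : ℤ) ∣ ((3) * e 2) - ((2) * e 1 + (3) * e 2) := h4 5 (by norm_num)
  intro i
  fin_cases i
  · show ((7 : ℕ) : ℤ) ∣ e 0
    refine ⟨(-2) * k0 + (-1) * k1 + (-1) * k3 - ((1) * e 1 + (1) * e 2), ?_⟩
    linear_combination (-2) * hk0 + (-1) * hk1 + (-1) * hk3
  · show ((7 : ℕ) : ℤ) ∣ e 1
    refine ⟨(3) * k3 - ((-1) * e 1), ?_⟩
    linear_combination (3) * hk3
  · show ((7 : ℕ) : ℤ) ∣ e 2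
    refine ⟨(-2) * k0 + (-2) * k1 + (3) * k3 - ((1) * e 2), ?_⟩
    linear_combination (-2) * hk0 + (-2) * hk1 + (3) * hk3

theorem kummer_lemma_eleven (K : Type) [Field K] [NumberField K] [IsCyclotomicExtension {11} ℚ K]
    (u : (𝓞 K)ˣ) (h : ∃ n : ℤ, ((11 : ℕ) : 𝓞 K) ∣ (u : 𝓞 K) - n) : ∃ v : (𝓞 K)ˣ, u = v ^ 11 := by
  have : Fact (Nat.Prime 11) := ⟨by norm_num⟩
  have hζ := IsCyclotomicExtension.zeta_spec 11 ℚ K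
  have hz : hζ.toInteger ^ 11 = 1 := hζ.toInteger_isPrimitiveRoot.pow_eq_one
  refine exists_pow_eq_of_dlog_eq_zero (p := 11) (dlog hζ) (dlog_mul hζ) smul_quot_eq_zero
    (ι := Fin 5) (by rw [rank_add_one (p := 11) (by norm_num) K]; rfl)
    ![zetaUnit hζ, cycUnit hζ 2 6 1 (by norm_num), cycUnit hζ 3 4 1 (by norm_num), cycUnit hζ 4 3 1 (by norm_num), cycUnit hζ 5 9 4 (by norm_num)] ?_ u (dlog_eq_zero hζ u h)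
  intro e he
  have hx : ∀ i, dlog hζ ((![zetaUnit hζ, cycUnit hζ 2 6 1 (by norm_num), cycUnit hζ 3 4 1 (by norm_num), cycUnit hζ 4 3 1 (by norm_num), cycUnit hζ 5 9 4 (by norm_num)] : Fin 5 → (𝓞 K)ˣ) i) =
      Ideal.Quotient.mk _ ((![hζ.toInteger - 1, (2 : ℕ) * ∑ i ∈ range 6, hζ.toInteger ^ (2 * (i + 1)) - hζ.toInteger, (3 : ℕ) * ∑ i ∈ range 4, hζ.toInteger ^ (3 * (i + 1)) - hζ.toInteger, (4 : ℕ) * ∑ i ∈ range 3, hζ.toInteger ^ (4 * (i + 1)) - hζ.toInteger, (5 : ℕ) * ∑ i ∈ range 9, hζ.toInteger ^ (5 * (i + 1)) - hζ.toInteger] : Fin 5 → 𝓞 K) i) := by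
    intro i
    fin_cases i
    · exact dlog_zetaUnit hζ
    · exact dlog_cycUnit hζ 2 6 1 (by norm_num)
    · exact dlog_cycUnit hζ 3 4 1 (by norm_num)
    · exact dlog_cycUnit hζ 4 3 1 (by norm_num)
    · exact dlog_cycUnit hζ 5 9 4 (by norm_num)
  simp_rw [hx] at he
  have h2 := dvd_of_sum_zsmul_eq_zero e _ he
  have h3 : ∑ i, (e i : 𝓞 K) * (![hζ.toInteger - 1, (2 : ℕ) * ∑ i ∈ range 6, hζ.toInteger ^ (2 * (i + 1)) - hζ.toInteger, (3 : ℕ) * ∑ i ∈ range 4, hζ.toInteger ^ (3 * (i + 1)) - hζ.toInteger, (4 : ℕ) * ∑ i ∈ range 3, hζ.toInteger ^ (4 * (i + 1)) - hζ.toInteger, (5 : ℕ) * ∑ i ∈ range 9, hζ.toInteger ^ (5 * (i + 1)) - hζ.toInteger] : Fin 5 → 𝓞 K) i =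
      ∑ m ∈ range 11, (((fun m : ℕ => if m = 0 then (-1) * e 0 else if m = 1 then (1) * e 0 + (1) * e 1 + (2) * e 2 + (3) * e 3 + (4) * e 4 else if m = 2 then (2) * e 1 + (5) * e 4 else if m = 3 then (3) * e 2 + (5) * e 4 else if m = 4 then (2) * e 1 + (4) * e 3 + (5) * e 4 else if m = 5 then (5) * e 4 else if m = 6 then (2) * e 1 + (3) * e 2 else if m = 7 then (5) * e 4 else if m = 8 then (2) * e 1 + (4) * e 3 + (5) * e 4 else if m = 9 then (3) * e 2 + (5) * e 4 else (2) * e 1 + (5) * e 4) m : ℤ) : 𝓞 K) * hζ.toInteger ^ m := by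
    rw [Fin.sum_univ_five]
    simp only [Finset.sum_range_succ, Finset.sum_range_zero, Matrix.cons_val]
    norm_num
    linear_combination ((e 1 : 𝓞 K) * ((2) * hζ.toInteger ^ 1) + (e 2 : 𝓞 K) * ((3) * hζ.toInteger ^ 1) + (e 3 : 𝓞 K) * ((4) * hζ.toInteger ^ 1) + (e 4 : 𝓞 K) * ((5) * hζ.toInteger ^ 1 + (5) * hζ.toInteger ^ 2 + (5) * hζ.toInteger ^ 3 + (5) * hζ.toInteger ^ 4 + (5) * hζ.toInteger ^ 7 + (5) * hζ.toInteger ^ 8 + (5) * hζ.toInteger ^ 9 + (5) * hζ.toInteger ^ 12 + (5) * hζ.toInteger ^ 13 + (5) * hζ.toInteger ^ 14 + (5) * hζ.toInteger ^ 18 + (5) * hζ.toInteger ^ 19 + (5) * hζ.toInteger ^ 23 + (5) * hζ.toInteger ^ 24 + (5) * hζ.toInteger ^ 29 + (5) * hζ.toInteger ^ 34)) * hz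
  rw [h3] at h2
  have h4 := dvd_sub_of_dvd_sum hζ _ h2
  obtain ⟨k0, hk0⟩ : ((11 : ℕ) : ℤ) ∣ ((-1) * e 0) - ((2) * e 1 + (5) * e 4) := h4 0 (by norm_num)
  obtain ⟨k1, hk1⟩ : ((11 : ℕ) : ℤ) ∣ ((1) * e 0 + (1) * e 1 + (2) * e 2 + (3) * e 3 + (4) * e 4) - ((2) * e 1 + (5) * e 4) := h4 1 (by norm_num)
  obtain ⟨k2, hk2⟩ : ((11 : ℕ) : ℤ) ∣ ((2) * e 1 + (5) * e 4) - ((2) * e 1 + (5) * e 4) := h4 2 (by norm_num)
  obtain ⟨k3, hk3⟩ : ((11 : ℕ) : ℤ) ∣ ((3) * e 2 + (5) * e 4) - ((2) * e 1 + (5) * e 4) := h4 3 (by norm_num)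
  obtain ⟨k4, hk4⟩ : ((11 : ℕ) : ℤ) ∣ ((2) * e 1 + (4) * e 3 + (5) * e 4) - ((2) * e 1 + (5) * e 4) := h4 4 (by norm_num)
  obtain ⟨k5, hk5⟩ : ((11 : ℕ) : ℤ) ∣ ((5) * e 4) - ((2) * e 1 + (5) * e 4) := h4 5 (by norm_num)
  obtain ⟨k6, hk6⟩ : ((11 : ℕ) : ℤ) ∣ ((2) * e 1 + (3) * e 2) - ((2) * e 1 + (5) * e 4) := h4 6 (by norm_num)
  obtain ⟨k7, hk7⟩ : ((11 : ℕ) : ℤ) ∣ ((5) * e 4) - ((2) * e 1 + (5) * e 4) := h4 7 (by norm_num)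
  obtain ⟨k8, hk8⟩ : ((11 : ℕ) : ℤ) ∣ ((2) * e 1 + (4) * e 3 + (5) * e 4) - ((2) * e 1 + (5) * e 4) := h4 8 (by norm_num)
  obtain ⟨k9, hk9⟩ : ((11 : ℕ) : ℤ) ∣ ((3) * e 2 + (5) * e 4) - ((2) * e 1 + (5) * e 4) := h4 9 (by norm_num)
  intro i
  fin_cases i
  · show ((11 : ℕ) : ℤ) ∣ e 0
    refine ⟨(-2) * k0 + (-1) * k1 + (-3) * k3 + (-2) * k4 - ((1) * e 1 + (-1) * e 2 + (-1) * e 3 + (1) * e 4), ?_⟩
    linear_combination (-2) * hk0 + (-1) * hk1 + (-3) * hk3 + (-2) * hk4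
  · show ((11 : ℕ) : ℤ) ∣ e 1
    refine ⟨(5) * k5 - ((-1) * e 1), ?_⟩
    linear_combination (5) * hk5
  · show ((11 : ℕ) : ℤ) ∣ e 2
    refine ⟨(4) * k3 + (-4) * k5 - ((1) * e 2), ?_⟩
    linear_combination (4) * hk3 + (-4) * hk5
  · show ((11 : ℕ) : ℤ) ∣ e 3
    refine ⟨(3) * k4 - ((1) * e 3), ?_⟩
    linear_combination (3) * hk4
  · show ((11 : ℕ) : ℤ) ∣ e 4
    refine ⟨(-2) * k0 + (-2) * k1 + (5) * k3 + (-4) * k4 + (-2) * k5 - ((1) * e 2 + (-2) * e 3 + (1) * e 4), ?_⟩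
    linear_combination (-2) * hk0 + (-2) * hk1 + (5) * hk3 + (-4) * hk4 + (-2) * hk5

theorem kummer_lemma_thirteen (K : Type) [Field K] [NumberField K] [IsCyclotomicExtension {13} ℚ K]
    (u : (𝓞 K)ˣ) (h : ∃ n : ℤ, ((13 : ℕ) : 𝓞 K) ∣ (u : 𝓞 K) - n) : ∃ v : (𝓞 K)ˣ, u = v ^ 13 := by
  have : Fact (Nat.Prime 13) := ⟨by norm_num⟩
  have hζ := IsCyclotomicExtension.zeta_spec 13 ℚ K
  have hz : hζ.toInteger ^ 13 = 1 := hζ.toInteger_isPrimitiveRoot.pow_eq_one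
  refine exists_pow_eq_of_dlog_eq_zero (p := 13) (dlog hζ) (dlog_mul hζ) smul_quot_eq_zero
    (ι := Fin 6) (by rw [rank_add_one (p := 13) (by norm_num) K]; rfl)
    ![zetaUnit hζ, cycUnit hζ 2 7 1 (by norm_num), cycUnit hζ 3 9 2 (by norm_num), cycUnit hζ 4 10 3 (by norm_num), cycUnit hζ 5 8 3 (by norm_num), cycUnit hζ 6 11 5 (by norm_num)] ?_ u (dlog_eq_zero hζ u h)
  intro e he
  have hx : ∀ i, dlog hζ ((![zetaUnit hζ, cycUnit hζ 2 7 1 (by norm_num), cycUnit hζ 3 9 2 (by norm_num), cycUnit hζ 4 10 3 (by norm_num), cycUnit hζ 5 8 3 (by norm_num), cycUnit hζ 6 11 5 (by norm_num)] : Fin 6 → (𝓞 K)ˣ) i) =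
      Ideal.Quotient.mk _ ((![hζ.toInteger - 1, (2 : ℕ) * ∑ i ∈ range 7, hζ.toInteger ^ (2 * (i + 1)) - hζ.toInteger, (3 : ℕ) * ∑ i ∈ range 9, hζ.toInteger ^ (3 * (i + 1)) - hζ.toInteger, (4 : ℕ) * ∑ i ∈ range 10, hζ.toInteger ^ (4 * (i + 1)) - hζ.toInteger, (5 : ℕ) * ∑ i ∈ range 8, hζ.toInteger ^ (5 * (i + 1)) - hζ.toInteger, (6 : ℕ) * ∑ i ∈ range 11, hζ.toInteger ^ (6 * (i + 1)) - hζ.toInteger] : Fin 6 → 𝓞 K) i) := by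
    intro i
    fin_cases i
    · exact dlog_zetaUnit hζ
    · exact dlog_cycUnit hζ 2 7 1 (by norm_num)
    · exact dlog_cycUnit hζ 3 9 2 (by norm_num)
    · exact dlog_cycUnit hζ 4 10 3 (by norm_num)
    · exact dlog_cycUnit hζ 5 8 3 (by norm_num)
    · exact dlog_cycUnit hζ 6 11 5 (by norm_num)
  simp_rw [hx] at he
  have h2 := dvd_of_sum_zsmul_eq_zero e _ he
  have h3 : ∑ i, (e i : 𝓞 K) * (![hζ.toInteger - 1, (2 : ℕ) * ∑ i ∈ range 7, hζ.toInteger ^ (2 * (i + 1)) - hζ.toInteger, (3 : ℕ) * ∑ i ∈ range 9, hζ.toInteger ^ (3 * (i + 1)) - hζ.toInteger, (4 : ℕ) * ∑ i ∈ range 10, hζ.toInteger ^ (4 * (i + 1)) - hζ.toInteger, (5 : ℕ) * ∑ i ∈ range 8, hζ.toInteger ^ (5 * (i + 1)) - hζ.toInteger, (6 : ℕ) * ∑ i ∈ range 11, hζ.toInteger ^ (6 * (i + 1)) - hζ.toInteger] : Fin 6 → 𝓞 K) i =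
      ∑ m ∈ range 13, (((fun m : ℕ => if m = 0 then (-1) * e 0 else if m = 1 then (1) * e 0 + (1) * e 1 + (2) * e 2 + (3) * e 3 + (4) * e 4 + (5) * e 5 else if m = 2 then (2) * e 1 + (3) * e 2 + (4) * e 3 + (5) * e 4 + (6) * e 5 else if m = 3 then (3) * e 2 + (4) * e 3 + (6) * e 5 else if m = 4 then (2) * e 1 + (4) * e 3 + (5) * e 4 + (6) * e 5 else if m = 5 then (3) * e 2 + (5) * e 4 + (6) * e 5 else if m = 6 then (2) * e 1 + (3) * e 2 + (4) * e 3 + (6) * e 5 else if m = 7 then (4) * e 3 + (5) * e 4 else if m = 8 then (2) * e 1 + (3) * e 2 + (4) * e 3 + (6) * e 5 else if m = 9 then (3) * e 2 + (5) * e 4 + (6) * e 5 else if m = 10 then (2) * e 1 + (4) * e 3 + (5) * e 4 + (6) * e 5 else if m = 11 then (3) * e 2 + (4) * e 3 + (6) * e 5 else (2) * e 1 + (3) * e 2 + (4) * e 3 + (5) * e 4 + (6) * e 5) m : ℤ) : 𝓞 K) *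 hζ.toInteger ^ m := by
    rw [Fin.sum_univ_six]
    simp only [Finset.sum_range_succ, Finset.sum_range_zero, Matrix.cons_val]
    norm_num
    linear_combination ((e 1 : 𝓞 K) * ((2) * hζ.toInteger ^ 1) + (e 2 : 𝓞 K) * ((3) * hζ.toInteger ^ 1 + (3) * hζ.toInteger ^ 2 + (3) * hζ.toInteger ^ 5 + (3) * hζ.toInteger ^ 8 + (3) * hζ.toInteger ^ 11 + (3) * hζ.toInteger ^ 14) + (e 3 : 𝓞 K) * ((4) * hζ.toInteger ^ 1 + (4) * hζ.toInteger ^ 2 + (4) * hζ.toInteger ^ 3 + (4) * hζ.toInteger ^ 6 + (4) * hζ.toInteger ^ 7 + (4) * hζ.toInteger ^ 10 + (4) * hζ.toInteger ^ 11 + (4) * hζ.toInteger ^ 14 + (4) * hζ.toInteger ^ 15 + (4) * hζ.toInteger ^ 19 + (4) * hζ.toInteger ^ 23 + (4) * hζ.toInteger ^ 27) + (e 4 : 𝓞 K) * ((5) * hζ.toInteger ^ 1 + (5) * hζ.toInteger ^ 2 + (5) * hζ.toInteger ^ 4 + (5) * hζ.toInteger ^ 7 + (5) * hζ.toInteger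 ^ 9 + (5) * hζ.toInteger ^ 12 + (5) * hζ.toInteger ^ 14 + (5) * hζ.toInteger ^ 17 + (5) * hζ.toInteger ^ 22 + (5) * hζ.toInteger ^ 27) + (e 5 : 𝓞 K) * ((6) * hζ.toInteger ^ 1 + (6) * hζ.toInteger ^ 2 + (6) * hζ.toInteger ^ 3 + (6) * hζ.toInteger ^ 4 + (6) * hζ.toInteger ^ 5 + (6) * hζ.toInteger ^ 8 + (6) * hζ.toInteger ^ 9 + (6) * hζ.toInteger ^ 10 + (6) * hζ.toInteger ^ 11 + (6) * hζ.toInteger ^ 14 + (6) * hζ.toInteger ^ 15 + (6) * hζ.toInteger ^ 16 + (6) * hζ.toInteger ^ 17 + (6) * hζ.toInteger ^ 21 + (6) * hζ.toInteger ^ 22 + (6) * hζ.toInteger ^ 23 + (6) * hζ.toInteger ^ 27 + (6) * hζ.toInteger ^ 28 + (6) * hζ.toInteger ^ 29 + (6) * hζ.toInteger ^ 34 + (6) * hζ.toInteger ^ 35 + (6) * hζ.toInteger ^ 40 + (6) * hζ.toInteger ^ 41 + (6) * hζ.toInteger ^ 47 + (6) * hζ.toInteger ^ 53)) * hz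
  rw [h3] at h2
  have h4 := dvd_sub_of_dvd_sum hζ _ h2
  obtain ⟨k0, hk0⟩ : ((13 : ℕ) : ℤ) ∣ ((-1) * e 0) - ((2) * e 1 + (3) * e 2 + (4) * e 3 + (5) * e 4 + (6) * e 5) := h4 0 (by norm_num)
  obtain ⟨k1, hk1⟩ : ((13 : ℕ) : ℤ) ∣ ((1) * e 0 + (1) * e 1 + (2) * e 2 + (3) * e 3 + (4) * e 4 + (5) * e 5) - ((2) * e 1 + (3) * e 2 + (4) * e 3 + (5) * e 4 + (6) * e 5) := h4 1 (by norm_num)
  obtain ⟨k2, hk2⟩ : ((13 : ℕ) : ℤ) ∣ ((2) * e 1 + (3) * e 2 + (4) * e 3 + (5) * e 4 + (6) * e 5) - ((2) * e 1 + (3) * e 2 + (4) * e 3 + (5) * e 4 + (6) * e 5) := h4 2 (by norm_num)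
  obtain ⟨k3, hk3⟩ : ((13 : ℕ) : ℤ) ∣ ((3) * e 2 + (4) * e 3 + (6) * e 5) - ((2) * e 1 + (3) * e 2 + (4) * e 3 + (5) * e 4 + (6) * e 5) := h4 3 (by norm_num)
  obtain ⟨k4, hk4⟩ : ((13 : ℕ) : ℤ) ∣ ((2) * e 1 + (4) * e 3 + (5) * e 4 + (6) * e 5) - ((2) * e 1 + (3) * e 2 + (4) * e 3 + (5) * e 4 + (6) * e 5) := h4 4 (by norm_num)
  obtain ⟨k5, hk5⟩ : ((13 : ℕ) : ℤ) ∣ ((3) * e 2 + (5) * e 4 + (6) * e 5) - ((2) * e 1 + (3) * e 2 + (4) * e 3 + (5) * e 4 + (6) * e 5) := h4 5 (by norm_num)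
  obtain ⟨k6, hk6⟩ : ((13 : ℕ) : ℤ) ∣ ((2) * e 1 + (3) * e 2 + (4) * e 3 + (6) * e 5) - ((2) * e 1 + (3) * e 2 + (4) * e 3 + (5) * e 4 + (6) * e 5) := h4 6 (by norm_num)
  obtain ⟨k7, hk7⟩ : ((13 : ℕ) : ℤ) ∣ ((4) * e 3 + (5) * e 4) - ((2) * e 1 + (3) * e 2 + (4) * e 3 + (5) * e 4 + (6) * e 5) := h4 7 (by norm_num)
  obtain ⟨k8, hk8⟩ : ((13 : ℕ) : ℤ) ∣ ((2) * e 1 + (3) * e 2 + (4) * e 3 + (6) * e 5) - ((2) * e 1 + (3) * e 2 + (4) * e 3 + (5) * e 4 + (6) * e 5) := h4 8 (by norm_num)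
  obtain ⟨k9, hk9⟩ : ((13 : ℕ) : ℤ) ∣ ((3) * e 2 + (5) * e 4 + (6) * e 5) - ((2) * e 1 + (3) * e 2 + (4) * e 3 + (5) * e 4 + (6) * e 5) := h4 9 (by norm_num)
  obtain ⟨k10, hk10⟩ : ((13 : ℕ) : ℤ) ∣ ((2) * e 1 + (4) * e 3 + (5) * e 4 + (6) * e 5) - ((2) * e 1 + (3) * e 2 + (4) * e 3 + (5) * e 4 + (6) * e 5) := h4 10 (by norm_num)
  obtain ⟨k11, hk11⟩ : ((13 : ℕ) : ℤ) ∣ ((3) * e 2 + (4) * e 3 + (6) * e 5) - ((2) * e 1 + (3) * e 2 + (4) * e 3 + (5) * e 4 + (6) * e 5) := h4 11 (by norm_num)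
  intro i
  fin_cases i
  · show ((13 : ℕ) : ℤ) ∣ e 0
    refine ⟨(-2) * k0 + (-1) * k1 + (-3) * k3 + (-2) * k4 + (-1) * k5 - ((1) * e 1 + (1) * e 2 + (1) * e 3 + (2) * e 4 + (1) * e 5), ?_⟩
    linear_combination (-2) * hk0 + (-1) * hk1 + (-3) * hk3 + (-2) * hk4 + (-1) * hk5
  · show ((13 : ℕ) : ℤ) ∣ e 1
    refine ⟨(6) * k3 + (-6) * k6 - ((-1) * e 1), ?_⟩
    linear_combination (6) * hk3 + (-6) * hk6
  · show ((13 : ℕ) : ℤ) ∣ e 2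
    refine ⟨(4) * k4 - ((-1) * e 2), ?_⟩
    linear_combination (4) * hk4
  · show ((13 : ℕ) : ℤ) ∣ e 3
    refine ⟨(-3) * k3 + (3) * k5 + (3) * k6 - ((-1) * e 3), ?_⟩
    linear_combination (-3) * hk3 + (3) * hk5 + (3) * hk6
  · show ((13 : ℕ) : ℤ) ∣ e 4
    refine ⟨(5) * k6 - ((-2) * e 4), ?_⟩
    linear_combination (5) * hk6
  · show ((13 : ℕ) : ℤ) ∣ e 5
    refine ⟨(-2) * k0 + (-2) * k1 + (-6) * k3 + (-6) * k4 + (-4) * k5 + (-2) * k6 - ((2) * e 1 + (2) * e 2 + (2) * e 3 + (4) * e 4 + (1) * e 5), ?_⟩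
    linear_combination (-2) * hk0 + (-2) * hk1 + (-6) * hk3 + (-6) * hk4 + (-4) * hk5 + (-2) * hk6

end Fermat.Agent.KummerLib
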