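import Mathlib

/-!
# `ℤ[ζ_p]` is a PID for `p = 7, 11, 13`

Minkowski bound + explicit generators of the small prime ideals.
-/

open NumberField Module InfinitePlace Ideal Nat Real Polynomial

namespace Fermat.Agent.KummerLib

/-- Minkowski-bound criterion for the `p`-th cyclotomic field, with an explicit bound `B`,
an explicit bound `F` on the residue degrees to be tested and an explicit list `L` of primes
over which a principal prime ideal has to be exhibited. -/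
theorem pid_of_bound (p : ℕ) (hp' : p.Prime) (K : Type) [Field K] [NumberField K]
    [hK : IsCyclotomicExtension {p} ℚ K] (B F : ℕ) (hF : B < 2 ^ (F + 1))
    (hB : (4 / π) ^ ((p - 1) / 2) *
      (((p - 1)! : ℝ) / ((p - 1 : ℕ) : ℝ) ^ (p - 1) * √((p : ℝ) ^ (p - 2))) < B + 1)
    (L : List ℕ)
    (h : ∀ ℓ ∈ Finset.Icc (1 : ℕ) B, ℓ.Prime → ℓ = p ∨
      (∀ f ∈ Finset.Icc (1 : ℕ) F, ℓ ^ f ≤ B → ((ℓ : ℕ) : ZMod p) ^ f ≠ 1) ∨ ℓ ∈ L)
    (hL : ∀ ℓ ∈ L, ∃ P ∈ primesOver (span {(ℓ : ℤ)}) (𝓞 K), Submodule.IsPrincipal P) :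
    IsPrincipalIdealRing (𝓞 K) := by
  have hp : Fact p.Prime := ⟨hp'⟩
  have : IsGalois ℚ K := IsCyclotomicExtension.isGalois {p} ℚ K
  have hM : ⌊(4 / π) ^ nrComplexPlaces K *
      (((finrank ℚ K)! : ℝ) / (finrank ℚ K : ℝ) ^ (finrank ℚ K) * √|(discr K : ℝ)|)⌋₊ ≤ B := by
    rw [IsCyclotomicExtension.Rat.discr_prime p K, IsCyclotomicExtension.finrank (n := p) K
      (cyclotomic.irreducible_rat hp.out.pos),
      IsCyclotomicExtension.Rat.nrComplexPlaces_eq_totient_div_two p, totient_prime hp.out]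
    have : |(((-1 : ℤ) ^ ((p - 1) / 2) * (p : ℤ) ^ (p - 2) : ℤ) : ℝ)| = (p : ℝ) ^ (p - 2) := by
      push_cast
      rw [abs_mul, abs_pow, abs_neg, abs_one, one_pow, one_mul, abs_of_nonneg (by positivity)]
    rw [this]
    exact Nat.lt_succ_iff.mp ((Nat.floor_lt (by positivity)).mpr (by exact_mod_cast hB))
  apply RingOfIntegers.isPrincipalIdealRing_of_isPrincipal_of_lt_or_isPrincipal_of_mem_primesOver_of_mem_Icc
  intro ℓ hℓ hℓp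
  have hℓB : ℓ ∈ Finset.Icc 1 B := by
    rw [Finset.mem_Icc] at hℓ ⊢
    exact ⟨hℓ.1, hℓ.2.trans hM⟩
  have : Fact ℓ.Prime := ⟨hℓp⟩
  by_cases hℓpp : ℓ = p
  · subst hℓpp
    let ζ := IsCyclotomicExtension.zeta ℓ ℚ K
    have hζ : IsPrimitiveRoot ζ ℓ := IsCyclotomicExtension.zeta_spec ℓ ℚ K
    refine ⟨span {hζ.toInteger - 1}, ⟨?_, ?_⟩, Or.inr ⟨_, rfl⟩⟩
    · exact IsCyclotomicExtension.Rat.isPrime_span_zeta_sub_one' ℓ hζ
    · rw [← pow_one ℓ] at hK hζ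
      exact IsCyclotomicExtension.Rat.liesOver_span_zeta_sub_one ℓ 0 hζ
  rcases h ℓ hℓB hℓp with h0 | h1 | h2
  · exact absurd h0 hℓpp
  · obtain ⟨⟨P, hP1, hP2⟩⟩ := (span {(ℓ : ℤ)}).nonempty_primesOver (S := 𝓞 K)
    refine ⟨P, ⟨hP1, hP2⟩, Or.inl ?_⟩
    have hndvd : ¬ ℓ ∣ p := fun hd => hℓpp ((Nat.prime_dvd_prime_iff_eq hℓp hp.out).mp hd)
    rw [IsCyclotomicExtension.Rat.inertiaDeg_eq_of_not_dvd ℓ K P hndvd]
    refine lt_of_le_of_lt hM ?_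
    by_contra hcon
    rw [not_lt] at hcon
    have hpos : 0 < orderOf (ℓ : ZMod p) := by
      have hcop : ℓ.Coprime p := (Nat.coprime_primes hℓp hp.out).mpr hℓpp
      have : (ℓ : ZMod p) = ((ZMod.unitOfCoprime ℓ hcop : (ZMod p)ˣ) : ZMod p) := by simp
      rw [this, orderOf_units]
      exact orderOf_pos _
    refine h1 (orderOf (ℓ : ZMod p)) ?_ hcon (pow_orderOf_eq_one _)
    rw [Finset.mem_Icc]
    refine ⟨hpos, ?_⟩
    have h3 : 2 ^ orderOf (ℓ : ZMod p) < 2 ^ (F + 1) :=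
      lt_of_le_of_lt ((Nat.pow_le_pow_left hℓp.two_le _).trans hcon) hF
    exact Nat.lt_succ_iff.mp ((Nat.pow_lt_pow_iff_right (by norm_num)).mp h3)
  · obtain ⟨P, hP, hPp⟩ := hL ℓ h2
    exact ⟨P, hP, Or.inr hPp⟩

/-- Kummer-Dedekind: to exhibit a principal prime over `ℓ` in the `p`-th cyclotomic field it is
enough to give an irreducible factor `Q` of `Φ_p` mod `ℓ` and a generator of `(ℓ, Q(ζ))`. -/
theorem exists_isPrincipal_primesOver (p ℓ : ℕ) (hp : p.Prime) (hℓ : ℓ.Prime)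
    (K : Type) [Field K] [NumberField K] [hK : IsCyclotomicExtension {p} ℚ K] (Q : ℤ[X])
    (hQirr : Irreducible (Q.map (Int.castRingHom (ZMod ℓ))))
    (hQmonic : (Q.map (Int.castRingHom (ZMod ℓ))).Monic)
    (hQdvd : Q.map (Int.castRingHom (ZMod ℓ)) ∣ cyclotomic p (ZMod ℓ))
    (H : ∀ ζ : 𝓞 K, ∑ i ∈ Finset.range p, ζ ^ i = 0 →
      ∃ α : 𝓞 K, α ∈ span {(ℓ : 𝓞 K), aeval ζ Q} ∧ α ∣ (ℓ : 𝓞 K) ∧ α ∣ aeval ζ Q) :
    ∃ P ∈ primesOver (span {(ℓ : ℤ)}) (𝓞 K), Submodule.IsPrincipal P := by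
  have : Fact p.Prime := ⟨hp⟩
  have : Fact ℓ.Prime := ⟨hℓ⟩
  have : NeZero p := ⟨hp.ne_zero⟩
  have hζ := IsCyclotomicExtension.zeta_spec p ℚ K
  set θ := hζ.toInteger with hθ
  have h₁ : ¬ ℓ ∣ RingOfIntegers.exponent θ := by
    rw [RingOfIntegers.exponent_eq_one_iff.mpr <|
      IsCyclotomicExtension.Rat.adjoin_singleton_eq_top hζ]
    exact hℓ.not_dvd_one
  have hmin : minpoly ℤ θ = cyclotomic p ℤ := by
    rw [cyclotomic_eq_minpoly hζ hp.pos, ← hζ.coe_toInteger, ← RingOfIntegers.minpoly_coe θ]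
    rfl
  have hQ : Q.map (Int.castRingHom (ZMod ℓ)) ∈ RingOfIntegers.monicFactorsMod θ ℓ := by
    rw [Multiset.mem_toFinset, Polynomial.mem_normalizedFactors_iff
      (map_monic_ne_zero (minpoly.monic θ.isIntegral)), hmin, map_cyclotomic_int]
    exact ⟨hQirr, hQmonic, hQdvd⟩
  refine ⟨_, ((NumberField.Ideal.primesOverSpanEquivMonicFactorsMod h₁).symm ⟨_, hQ⟩).prop, ?_⟩
  rw [NumberField.Ideal.primesOverSpanEquivMonicFactorsMod_symm_apply_eq_span h₁ hQ]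
  obtain ⟨α, hα1, hα2, hα3⟩ := H θ (hζ.toInteger_isPrimitiveRoot.geom_sum_eq_zero hp.one_lt)
  refine ⟨α, le_antisymm ?_ ?_⟩
  · rw [Ideal.span_le]
    intro x hx
    rcases hx with rfl | hx
    · exact Ideal.mem_span_singleton.mpr hα2
    · rw [Set.mem_singleton_iff] at hx
      subst hx
      exact Ideal.mem_span_singleton.mpr hα3
  · rw [Ideal.submodule_span_eq, Ideal.span_singleton_le_iff_mem]
    exact hα1

theorem pid_seven (K : Type) [Field K] [NumberField K] [IsCyclotomicExtension {7} ℚ K] :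
    IsPrincipalIdealRing (𝓞 K) := by
  refine pid_of_bound 7 (by norm_num) K 4 2 (by norm_num) ?_ [] ?_ (by simp)
  · have h1 : (4 / π) ^ ((7 - 1) / 2) < (4 / 3) ^ ((7 - 1) / 2) := by
      gcongr
      exact pi_gt_three
    have h2 : √((7 : ℝ) ^ (7 - 2)) < 130 := by
      rw [Real.sqrt_lt' (by norm_num)]
      norm_num
    calc _ < (4 / 3 : ℝ) ^ ((7 - 1) / 2) * (((7 - 1)! : ℝ) / ((7 - 1 : ℕ) : ℝ) ^ (7 - 1) * 130) := by
          push_cast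
          gcongr
      _ < _ := by
          norm_num [Nat.factorial]
  · decide

theorem principal_11_23 (K : Type) [Field K] [NumberField K] [IsCyclotomicExtension {11} ℚ K] :
    ∃ P ∈ primesOver (span {((23 : ℕ) : ℤ)}) (𝓞 K), Submodule.IsPrincipal P := by
  have hroot : ∑ i ∈ Finset.range 11, ((Int.castRingHom (ZMod 23)) 13) ^ i = 0 := by decide
  have : Fact (Nat.Prime 23) := ⟨by norm_num⟩
  have : Fact (Nat.Prime 11) := ⟨by norm_num⟩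
  refine exists_isPrincipal_primesOver 11 23 (by norm_num) (by norm_num) K (X - C 13) ?_ ?_ ?_ ?_
  · rw [Polynomial.map_sub, map_X, map_C]
    exact irreducible_X_sub_C _
  · rw [Polynomial.map_sub, map_X, map_C]
    exact monic_X_sub_C _
  · rw [Polynomial.map_sub, map_X, map_C, dvd_iff_isRoot, IsRoot.def, cyclotomic_prime,
      eval_geom_sum]
    exact hroot
  · intro ζ hζ
    have hΦ : 1 + ζ + ζ ^ 2 + ζ ^ 3 + ζ ^ 4 + ζ ^ 5 + ζ ^ 6 + ζ ^ 7 + ζ ^ 8 + ζ ^ 9 + ζ ^ 10 = 0 := by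
      simpa [Finset.sum_range_succ] using hζ
    refine ⟨1 - ζ + ζ ^ 3, ?_,
      ⟨8 - 2 * ζ - ζ ^ 2 - 8 * ζ ^ 3 - 5 * ζ ^ 4 - 3 * ζ ^ 5 + 6 * ζ ^ 6 + 12 * ζ ^ 7 + 16 * ζ ^ 8 + 11 * ζ ^ 9, ?_⟩,
      ⟨-5 + ζ + 4 * ζ ^ 3 + 2 * ζ ^ 4 + ζ ^ 5 - 4 * ζ ^ 6 - 7 * ζ ^ 7 - 9 * ζ ^ 8 - 6 * ζ ^ 9, ?_⟩⟩
    · rw [Ideal.mem_span_pair]
      refine ⟨95, 168 + 13 * ζ + ζ ^ 2, ?_⟩
      simp only [map_sub, aeval_X, map_ofNat, Nat.cast_ofNat]
      ring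
    · simp only [Nat.cast_ofNat]
      linear_combination (15 - 5 * ζ - 11 * ζ ^ 2) * hΦ
    · simp only [map_sub, aeval_X, map_ofNat]
      linear_combination (-8 + 3 * ζ + 6 * ζ ^ 2) * hΦ

theorem pid_eleven (K : Type) [Field K] [NumberField K] [IsCyclotomicExtension {11} ℚ K] :
    IsPrincipalIdealRing (𝓞 K) := by
  refine pid_of_bound 11 (by norm_num) K 59 5 (by norm_num) ?_ [23] ?_ ?_
  · have h1 : (4 / π) ^ ((11 - 1) / 2) < (4 / 3.14) ^ ((11 - 1) / 2) := by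
      gcongr
      exact pi_gt_d2
    have h2 : √((11 : ℝ) ^ (11 - 2)) < 48559 := by
      rw [Real.sqrt_lt' (by norm_num)]
      norm_num
    calc _ < (4 / 3.14 : ℝ) ^ ((11 - 1) / 2) *
          (((11 - 1)! : ℝ) / ((11 - 1 : ℕ) : ℝ) ^ (11 - 1) * 48559) := by
          push_cast
          gcongr
      _ < _ := by
          norm_num [Nat.factorial]
  · decide
  · intro ℓ hℓ
    simp only [List.mem_cons, List.not_mem_nil, or_false] at hℓ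
    subst hℓ
    exact principal_11_23 K

theorem principal_13_53 (K : Type) [Field K] [NumberField K] [IsCyclotomicExtension {13} ℚ K] :
    ∃ P ∈ primesOver (span {((53 : ℕ) : ℤ)}) (𝓞 K), Submodule.IsPrincipal P := by
  have hroot : ∑ i ∈ Finset.range 13, ((Int.castRingHom (ZMod 53)) 16) ^ i = 0 := by decide
  have : Fact (Nat.Prime 53) := ⟨by norm_num⟩
  have : Fact (Nat.Prime 13) := ⟨by norm_num⟩
  refine exists_isPrincipal_primesOver 13 53 (by norm_num) (by norm_num) K (X - C 16) ?_ ?_ ?_ ?_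
  · rw [Polynomial.map_sub, map_X, map_C]
    exact irreducible_X_sub_C _
  · rw [Polynomial.map_sub, map_X, map_C]
    exact monic_X_sub_C _
  · rw [Polynomial.map_sub, map_X, map_C, dvd_iff_isRoot, IsRoot.def, cyclotomic_prime,
      eval_geom_sum]
    exact hroot
  · intro ζ hζ
    have hΦ : 1 + ζ + ζ ^ 2 + ζ ^ 3 + ζ ^ 4 + ζ ^ 5 + ζ ^ 6 + ζ ^ 7 + ζ ^ 8 + ζ ^ 9 + ζ ^ 10 + ζ ^ 11 + ζ ^ 12 = 0 := by
      simpa [Finset.sum_range_succ] using hζ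
    refine ⟨1 - ζ + ζ ^ 3, ?_,
      ⟨25 + 10 * ζ + 19 * ζ ^ 2 + 3 * ζ ^ 3 + 2 * ζ ^ 4 - 8 * ζ ^ 5 - 2 * ζ ^ 6 + 5 * ζ ^ 7 + 22 * ζ ^ 8 + 33 * ζ ^ 9 + 37 * ζ ^ 10 + 24 * ζ ^ 11, ?_⟩,
      ⟨-8 - 3 * ζ - 6 * ζ ^ 2 - ζ ^ 3 - ζ ^ 4 + 2 * ζ ^ 5 - 2 * ζ ^ 7 - 7 * ζ ^ 8 - 10 * ζ ^ 9 - 11 * ζ ^ 10 - 7 * ζ ^ 11, ?_⟩⟩
    · rw [Ideal.mem_span_pair]
      refine ⟨77, 255 + 16 * ζ + ζ ^ 2, ?_⟩
      simp only [map_sub, aeval_X, map_ofNat, Nat.cast_ofNat]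
      ring
    · simp only [Nat.cast_ofNat]
      linear_combination (28 - 13 * ζ - 24 * ζ ^ 2) * hΦ
    · simp only [map_sub, aeval_X, map_ofNat]
      linear_combination (-8 + 4 * ζ + 7 * ζ ^ 2) * hΦ

theorem principal_13_79 (K : Type) [Field K] [NumberField K] [IsCyclotomicExtension {13} ℚ K] :
    ∃ P ∈ primesOver (span {((79 : ℕ) : ℤ)}) (𝓞 K), Submodule.IsPrincipal P := by
  have hroot : ∑ i ∈ Finset.range 13, ((Int.castRingHom (ZMod 79)) 62) ^ i = 0 := by decide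
  have : Fact (Nat.Prime 79) := ⟨by norm_num⟩
  have : Fact (Nat.Prime 13) := ⟨by norm_num⟩
  refine exists_isPrincipal_primesOver 13 79 (by norm_num) (by norm_num) K (X - C 62) ?_ ?_ ?_ ?_
  · rw [Polynomial.map_sub, map_X, map_C]
    exact irreducible_X_sub_C _
  · rw [Polynomial.map_sub, map_X, map_C]
    exact monic_X_sub_C _
  · rw [Polynomial.map_sub, map_X, map_C, dvd_iff_isRoot, IsRoot.def, cyclotomic_prime,
      eval_geom_sum]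
    exact hroot
  · intro ζ hζ
    have hΦ : 1 + ζ + ζ ^ 2 + ζ ^ 3 + ζ ^ 4 + ζ ^ 5 + ζ ^ 6 + ζ ^ 7 + ζ ^ 8 + ζ ^ 9 + ζ ^ 10 + ζ ^ 11 + ζ ^ 12 = 0 := by
      simpa [Finset.sum_range_succ] using hζ
    refine ⟨1 - ζ - ζ ^ 4, ?_,
      ⟨62 + 63 * ζ + 49 * ζ ^ 2 + 8 * ζ ^ 3 + 29 * ζ ^ 4 + 51 * ζ ^ 5 + 59 * ζ ^ 6 + 26 * ζ ^ 7 + 14 * ζ ^ 8 + 24 * ζ ^ 9 + 42 * ζ ^ 10 + 27 * ζ ^ 11, ?_⟩,
      ⟨-49 - 49 * ζ - 38 * ζ ^ 2 - 6 * ζ ^ 3 - 23 * ζ ^ 4 - 40 * ζ ^ 5 - 46 * ζ ^ 6 - 20 * ζ ^ 7 - 11 * ζ ^ 8 - 19 * ζ ^ 9 - 33 * ζ ^ 10 - 21 * ζ ^ 11, ?_⟩⟩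
    · rw [Ideal.mem_span_pair]
      refine ⟨-187043, -238329 - 3844 * ζ - 62 * ζ ^ 2 - ζ ^ 3, ?_⟩
      simp only [map_sub, aeval_X, map_ofNat, Nat.cast_ofNat]
      ring
    · simp only [Nat.cast_ofNat]
      linear_combination (17 - 18 * ζ + 15 * ζ ^ 2 + 27 * ζ ^ 3) * hΦ
    · simp only [map_sub, aeval_X, map_ofNat]
      linear_combination (-13 + 14 * ζ - 12 * ζ ^ 2 - 21 * ζ ^ 3) * hΦ

theorem principal_13_131 (K : Type) [Field K] [NumberField K] [IsCyclotomicExtension {13} ℚ K] :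
    ∃ P ∈ primesOver (span {((131 : ℕ) : ℤ)}) (𝓞 K), Submodule.IsPrincipal P := by
  have hroot : ∑ i ∈ Finset.range 13, ((Int.castRingHom (ZMod 131)) 80) ^ i = 0 := by decide
  have : Fact (Nat.Prime 131) := ⟨by norm_num⟩
  have : Fact (Nat.Prime 13) := ⟨by norm_num⟩
  refine exists_isPrincipal_primesOver 13 131 (by norm_num) (by norm_num) K (X - C 80) ?_ ?_ ?_ ?_
  · rw [Polynomial.map_sub, map_X, map_C]
    exact irreducible_X_sub_C _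
  · rw [Polynomial.map_sub, map_X, map_C]
    exact monic_X_sub_C _
  · rw [Polynomial.map_sub, map_X, map_C, dvd_iff_isRoot, IsRoot.def, cyclotomic_prime,
      eval_geom_sum]
    exact hroot
  · intro ζ hζ
    have hΦ : 1 + ζ + ζ ^ 2 + ζ ^ 3 + ζ ^ 4 + ζ ^ 5 + ζ ^ 6 + ζ ^ 7 + ζ ^ 8 + ζ ^ 9 + ζ ^ 10 + ζ ^ 11 + ζ ^ 12 = 0 := by
      simpa [Finset.sum_range_succ] using hζ
    refine ⟨1 - ζ - ζ ^ 3, ?_,
      ⟨111 + 78 * ζ + 17 * ζ ^ 2 + 67 * ζ ^ 3 + 84 * ζ ^ 4 + 40 * ζ ^ 5 + 46 * ζ ^ 6 + 69 * ζ ^ 7 + 48 * ζ ^ 8 + 33 * ζ ^ 9 + 41 * ζ ^ 10 + 28 * ζ ^ 11, ?_⟩,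
      ⟨-68 - 47 * ζ - 10 * ζ ^ 2 - 41 * ζ ^ 3 - 51 * ζ ^ 4 - 24 * ζ ^ 5 - 28 * ζ ^ 6 - 42 * ζ ^ 7 - 29 * ζ ^ 8 - 20 * ζ ^ 9 - 25 * ζ ^ 10 - 17 * ζ ^ 11, ?_⟩⟩
    · rw [Ideal.mem_span_pair]
      refine ⟨-3909, -6401 - 80 * ζ - ζ ^ 2, ?_⟩
      simp only [map_sub, aeval_X, map_ofNat, Nat.cast_ofNat]
      ring
    · simp only [Nat.cast_ofNat]
      linear_combination (20 + 13 * ζ + 28 * ζ ^ 2) * hΦ
    · simp only [map_sub, aeval_X, map_ofNat]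
      linear_combination (-12 - 8 * ζ - 17 * ζ ^ 2) * hΦ

theorem principal_13_157 (K : Type) [Field K] [NumberField K] [IsCyclotomicExtension {13} ℚ K] :
    ∃ P ∈ primesOver (span {((157 : ℕ) : ℤ)}) (𝓞 K), Submodule.IsPrincipal P := by
  have hroot : ∑ i ∈ Finset.range 13, ((Int.castRingHom (ZMod 157)) 75) ^ i = 0 := by decide
  have : Fact (Nat.Prime 157) := ⟨by norm_num⟩
  have : Fact (Nat.Prime 13) := ⟨by norm_num⟩
  refine exists_isPrincipal_primesOver 13 157 (by norm_num) (by norm_num) K (X - C 75) ?_ ?_ ?_ ?_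
  · rw [Polynomial.map_sub, map_X, map_C]
    exact irreducible_X_sub_C _
  · rw [Polynomial.map_sub, map_X, map_C]
    exact monic_X_sub_C _
  · rw [Polynomial.map_sub, map_X, map_C, dvd_iff_isRoot, IsRoot.def, cyclotomic_prime,
      eval_geom_sum]
    exact hroot
  · intro ζ hζ
    have hΦ : 1 + ζ + ζ ^ 2 + ζ ^ 3 + ζ ^ 4 + ζ ^ 5 + ζ ^ 6 + ζ ^ 7 + ζ ^ 8 + ζ ^ 9 + ζ ^ 10 + ζ ^ 11 + ζ ^ 12 = 0 := by
      simpa [Finset.sum_range_succ] using hζ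
    refine ⟨1 - ζ + ζ ^ 2 + ζ ^ 4, ?_,
      ⟨89 + 86 * ζ + 42 * ζ ^ 2 + 77 * ζ ^ 3 + 67 * ζ ^ 4 + 25 * ζ ^ 5 + 37 * ζ ^ 6 + 56 * ζ ^ 7 + 73 * ζ ^ 8 + 113 * ζ ^ 9 + 124 * ζ ^ 10 + 76 * ζ ^ 11, ?_⟩,
      ⟨-43 - 41 * ζ - 20 * ζ ^ 2 - 37 * ζ ^ 3 - 32 * ζ ^ 4 - 12 * ζ ^ 5 - 18 * ζ ^ 6 - 27 * ζ ^ 7 - 35 * ζ ^ 8 - 54 * ζ ^ 9 - 59 * ζ ^ 10 - 36 * ζ ^ 11, ?_⟩⟩
    · rw [Ideal.mem_span_pair]
      refine ⟨201568, 421949 + 5626 * ζ + 75 * ζ ^ 2 + ζ ^ 3, ?_⟩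
      simp only [map_sub, aeval_X, map_ofNat, Nat.cast_ofNat]
      ring
    · simp only [Nat.cast_ofNat]
      linear_combination (68 - 65 * ζ - 48 * ζ ^ 2 - 76 * ζ ^ 3) * hΦ
    · simp only [map_sub, aeval_X, map_ofNat]
      linear_combination (-32 + 31 * ζ + 23 * ζ ^ 2 + 36 * ζ ^ 3) * hΦ

theorem principal_13_3 (K : Type) [Field K] [NumberField K] [IsCyclotomicExtension {13} ℚ K] :
    ∃ P ∈ primesOver (span {((3 : ℕ) : ℤ)}) (𝓞 K), Submodule.IsPrincipal P := by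
  have hroot : ∀ x : ZMod 3, x ^ 3 - x - 1 ≠ 0 := by decide
  have : Fact (Nat.Prime 3) := ⟨by norm_num⟩
  have : Fact (Nat.Prime 13) := ⟨by norm_num⟩
  have hmap : (X ^ 3 - X - 1 : ℤ[X]).map (Int.castRingHom (ZMod 3)) = X ^ 3 - X - 1 := by
    simp
  have hdeg : (X ^ 3 - X - 1 : (ZMod 3)[X]).natDegree = 3 := by
    compute_degree!
  refine exists_isPrincipal_primesOver 13 3 (by norm_num) (by norm_num) K (X ^ 3 - X - 1) ?_ ?_ ?_ ?_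
  · rw [hmap]
    refine irreducible_of_degree_le_three_of_not_isRoot (by rw [hdeg]; decide) fun x hx => ?_
    apply hroot x
    simpa using hx
  · rw [hmap]
    monicity!
  · rw [hmap]
    have key : cyclotomic 13 ℤ = (X ^ 3 - X - 1) * (-1 - X ^ 2 - X ^ 3 + X ^ 5 - X ^ 7 + X ^ 8 + X ^ 9) + 3 * (X ^ 5 + X ^ 6 + X ^ 9 + X ^ 10) := by
      rw [cyclotomic_prime]
      simp only [Finset.sum_range_succ, Finset.sum_range_zero]
      ring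
    have key2 := congrArg (Polynomial.map (Int.castRingHom (ZMod 3))) key
    rw [map_cyclotomic_int] at key2
    have h3 : (3 : (ZMod 3)[X]) = 0 := by
      have : ((3 : ℕ) : (ZMod 3)[X]) = 0 := CharP.cast_eq_zero _ 3
      simpa using this
    rw [key2]
    simp only [Polynomial.map_add, Polynomial.map_mul, Polynomial.map_sub, Polynomial.map_pow,
      Polynomial.map_neg, map_X, Polynomial.map_one, Polynomial.map_ofNat, h3, zero_mul, add_zero]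
    exact Dvd.intro _ rfl
  · intro ζ hζ
    have hΦ : 1 + ζ + ζ ^ 2 + ζ ^ 3 + ζ ^ 4 + ζ ^ 5 + ζ ^ 6 + ζ ^ 7 + ζ ^ 8 + ζ ^ 9 + ζ ^ 10 + ζ ^ 11 + ζ ^ 12 = 0 := by
      simpa [Finset.sum_range_succ] using hζ
    refine ⟨1 + ζ - ζ ^ 3, ?_,
      ⟨-1 - ζ ^ 2 - ζ ^ 3 - 2 * ζ ^ 5 - ζ ^ 7 - 2 * ζ ^ 8 + ζ ^ 9 - 3 * ζ ^ 10, ?_⟩,
      ⟨-1, ?_⟩⟩
    · rw [Ideal.mem_span_pair]
      refine ⟨0, -1, ?_⟩
      simp only [map_sub, map_pow, aeval_X, map_one]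
      ring
    · simp only [Nat.cast_ofNat]
      linear_combination (4 - 3 * ζ) * hΦ
    · simp only [map_sub, map_pow, aeval_X, map_one]
      ring

set_option maxRecDepth 100000 in
theorem pid_thirteen (K : Type) [Field K] [NumberField K] [IsCyclotomicExtension {13} ℚ K] :
    IsPrincipalIdealRing (𝓞 K) := by
  refine pid_of_bound 13 (by norm_num) K 307 8 (by norm_num) ?_ [3, 53, 79, 131, 157] ?_ ?_
  · have h1 : (4 / π) ^ ((13 - 1) / 2) < (4 / 3.14) ^ ((13 - 1) / 2) := by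
      gcongr
      exact pi_gt_d2
    have h2 : √((13 : ℝ) ^ (13 - 2)) < 1338716 := by
      rw [Real.sqrt_lt' (by norm_num)]
      norm_num
    calc _ < (4 / 3.14 : ℝ) ^ ((13 - 1) / 2) *
          (((13 - 1)! : ℝ) / ((13 - 1 : ℕ) : ℝ) ^ (13 - 1) * 1338716) := by
          push_cast
          gcongr
      _ < _ := by
          norm_num [Nat.factorial]
  · decide
  · intro ℓ hℓ
    simp only [List.mem_cons, List.not_mem_nil, or_false] at hℓ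
    rcases hℓ with rfl | rfl | rfl | rfl | rfl
    · exact principal_13_3 K
    · exact principal_13_53 K
    · exact principal_13_79 K
    · exact principal_13_131 K
    · exact principal_13_157 K

end Fermat.Agent.KummerLib
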