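import Mathlib
import Fermat.Prelude.Def_FLTPrelim_FreyPackage

/-!
# Wiring: case I + case II give non-existence of Frey packages of a given exponent
-/

set_option autoImplicit false

namespace Fermat.Agent.KummerLib

/-- Case I and case II (with `p ∣ c`) together exclude all coprime nonzero solutions. -/
theorem false_of_caseI_caseII {p : ℕ} (hp : p.Prime) (hp2 : p ≠ 2)
    (hI : ∀ {a b c : ℤ}, IsCoprime a b → a ^ p + b ^ p = c ^ p → (p : ℤ) ∣ a * b * c)
    (hII : ∀ {a b c : ℤ}, IsCoprime a b → c ≠ 0 → (p : ℤ) ∣ c → a ^ p + b ^ p = c ^ p → False)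
    {a b c : ℤ} (hab : IsCoprime a b) (ha : a ≠ 0) (hb : b ≠ 0) (hc : c ≠ 0)
    (h : a ^ p + b ^ p = c ^ p) : False := by
  have hpp : Prime (p : ℤ) := Nat.prime_iff_prime_int.1 hp
  have hodd : Odd p := hp.odd_of_ne_two hp2
  have hbc : IsCoprime b c := by
    have h3 : IsCoprime (b ^ p) (c ^ p) := by
      rw [← h]
      have : IsCoprime (b ^ p) (a ^ p + b ^ p * 1) :=
        IsCoprime.add_mul_left_right (hab.symm.pow) 1
      simpa using this
    exact (IsCoprime.pow_iff hp.pos hp.pos).1 h3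
  have hca : IsCoprime c a := by
    have h3 : IsCoprime (c ^ p) (a ^ p) := by
      rw [← h]
      have : IsCoprime (b ^ p + a ^ p * 1) (a ^ p) :=
        IsCoprime.add_mul_left_left (hab.symm.pow) 1
      simpa [add_comm] using this
    exact (IsCoprime.pow_iff hp.pos hp.pos).1 h3
  rcases hpp.dvd_or_dvd (hI hab h) with hd | hd
  · rcases hpp.dvd_or_dvd hd with hd | hd
    · -- `p ∣ a`: use `c ^ p + (-b) ^ p = a ^ p`
      refine hII (a := c) (b := -b) (c := a) ?_ ha hd ?_
      · exact (IsCoprime.neg_right_iff _ _).2 hbc.symm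
      · rw [hodd.neg_pow]; linear_combination -h
    · -- `p ∣ b`: use `c ^ p + (-a) ^ p = b ^ p`
      refine hII (a := c) (b := -a) (c := b) ?_ hb hd ?_
      · exact (IsCoprime.neg_right_iff _ _).2 hca
      · rw [hodd.neg_pow]; linear_combination -h
  · exact hII hab hc hd h

/-- No Frey package of exponent `p` once case I and case II are known for `p`. -/
theorem false_of_freyPackage (P : FreyPackage)
    (hI : ∀ {a b c : ℤ}, IsCoprime a b → a ^ P.p + b ^ P.p = c ^ P.p → (P.p : ℤ) ∣ a * b * c)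
    (hII : ∀ {a b c : ℤ}, IsCoprime a b → c ≠ 0 → (P.p : ℤ) ∣ c →
      a ^ P.p + b ^ P.p = c ^ P.p → False) : False := by
  have hp2 : P.p ≠ 2 := by have := P.hp5; omega
  have hab : IsCoprime P.a P.b := by
    rw [Int.isCoprime_iff_gcd_eq_one]
    have h := P.hgcdab
    rw [← Int.coe_gcd] at h
    exact_mod_cast h
  exact false_of_caseI_caseII P.pp hp2 hI hII hab P.ha0 P.hb0 P.hc0 P.hFLT

end Fermat.Agent.KummerLib
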