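import Mathlib
import Fermat.Prelude.Def_FLTPrelim_FreyPackage
import Fermat.Agent.Lib.Kummer.CaseI
import Fermat.Agent.Lib.Kummer.CaseII
import Fermat.Agent.Lib.Kummer.PID
import Fermat.Agent.Lib.Kummer.KummerLemma
import Fermat.Agent.Lib.Kummer.Wiring

/-!
# No Frey package of exponent 5, 7, 11, 13 (Kummer's proof for class number one)
-/

set_option autoImplicit false

namespace Fermat.Agent.KummerLib

open NumberField

set_option backward.isDefEq.respectTransparency false in
theorem caseII_five {a b c : ℤ} (hab : IsCoprime a b) (hc : c ≠ 0) (hpc : ((5 : ℕ) : ℤ) ∣ c)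
    (h : a ^ 5 + b ^ 5 = c ^ 5) : False := by
  have : Fact (Nat.Prime 5) := ⟨by norm_num⟩
  have : IsPrincipalIdealRing (𝓞 (CyclotomicField 5 ℚ)) :=
    IsCyclotomicExtension.Rat.five_pid (CyclotomicField 5 ℚ)
  exact caseII (p := 5) (by norm_num) (CyclotomicField 5 ℚ)
    (kummer_lemma_five (CyclotomicField 5 ℚ)) hab hc hpc h

set_option backward.isDefEq.respectTransparency false in
theorem caseII_seven {a b c : ℤ} (hab : IsCoprime a b) (hc : c ≠ 0) (hpc : ((7 : ℕ) : ℤ) ∣ c)
    (h : a ^ 7 + b ^ 7 = c ^ 7) : False := by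
  have : Fact (Nat.Prime 7) := ⟨by norm_num⟩
  have : IsPrincipalIdealRing (𝓞 (CyclotomicField 7 ℚ)) := pid_seven (CyclotomicField 7 ℚ)
  exact caseII (p := 7) (by norm_num) (CyclotomicField 7 ℚ)
    (kummer_lemma_seven (CyclotomicField 7 ℚ)) hab hc hpc h

set_option backward.isDefEq.respectTransparency false in
theorem caseII_eleven {a b c : ℤ} (hab : IsCoprime a b) (hc : c ≠ 0) (hpc : ((11 : ℕ) : ℤ) ∣ c)
    (h : a ^ 11 + b ^ 11 = c ^ 11) : False := by
  have : Fact (Nat.Prime 11) := ⟨by norm_num⟩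
  have : IsPrincipalIdealRing (𝓞 (CyclotomicField 11 ℚ)) := pid_eleven (CyclotomicField 11 ℚ)
  exact caseII (p := 11) (by norm_num) (CyclotomicField 11 ℚ)
    (kummer_lemma_eleven (CyclotomicField 11 ℚ)) hab hc hpc h

set_option backward.isDefEq.respectTransparency false in
theorem caseII_thirteen {a b c : ℤ} (hab : IsCoprime a b) (hc : c ≠ 0) (hpc : ((13 : ℕ) : ℤ) ∣ c)
    (h : a ^ 13 + b ^ 13 = c ^ 13) : False := by
  have : Fact (Nat.Prime 13) := ⟨by norm_num⟩
  have : IsPrincipalIdealRing (𝓞 (CyclotomicField 13 ℚ)) := pid_thirteen (CyclotomicField 13 ℚ)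
  exact caseII (p := 13) (by norm_num) (CyclotomicField 13 ℚ)
    (kummer_lemma_thirteen (CyclotomicField 13 ℚ)) hab hc hpc h

/-- There is no Frey package of exponent `5`, `7`, `11` or `13`. -/
theorem false_of_freyPackage_small (P : FreyPackage)
    (hp : P.p = 5 ∨ P.p = 7 ∨ P.p = 11 ∨ P.p = 13) : False := by
  refine false_of_freyPackage P ?_ ?_
  · intro a b c hab h
    rcases hp with hp | hp | hp | hp <;> rw [hp] at h ⊢
    · exact caseI_five hab h
    · exact caseI_seven hab h
    · exact caseI_eleven hab h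
    · exact caseI_thirteen hab h
  · intro a b c hab hc hpc h
    rcases hp with hp | hp | hp | hp <;> rw [hp] at h hpc
    · exact caseII_five hab hc hpc h
    · exact caseII_seven hab hc hpc h
    · exact caseII_eleven hab hc hpc h
    · exact caseII_thirteen hab hc hpc h

end Fermat.Agent.KummerLib
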